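import Mathlib
import Fermat.Prelude.Def_CuspForm_HeckeAlgebra

set_option autoImplicit false

open UpperHalfPlane hiding I
open Complex Filter Function
open scoped Manifold MatrixGroups ModularForm Topology Derivative

namespace Fermat.Agent.S22

theorem mdiff_iterate_D (n : ℕ) {F : ℍ → ℂ} (hF : MDiff F) : MDiff (D^[n] F) := by
  induction n generalizing F with
  | zero => simpa using hF
  | succ n ih =>
    rw [Function.iterate_succ_apply]
    exact ih (Derivative.normalizedDerivOfComplex_mdifferentiable hF)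

theorem iterate_D_add (n : ℕ) {F G : ℍ → ℂ} (hF : MDiff F) (hG : MDiff G) :
    D^[n] (F + G) = D^[n] F + D^[n] G := by
  induction n generalizing F G with
  | zero => simp
  | succ n ih =>
    rw [Function.iterate_succ_apply, Function.iterate_succ_apply, Function.iterate_succ_apply,
      Derivative.normalizedDerivOfComplex_add F G hF hG]
    exact ih (Derivative.normalizedDerivOfComplex_mdifferentiable hF)
      (Derivative.normalizedDerivOfComplex_mdifferentiable hG)

theorem iterate_D_sub (n : ℕ) {F G : ℍ → ℂ} (hF : MDiff F) (hG : MDiff G) :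
    D^[n] (F - G) = D^[n] F - D^[n] G := by
  induction n generalizing F G with
  | zero => simp
  | succ n ih =>
    rw [Function.iterate_succ_apply, Function.iterate_succ_apply, Function.iterate_succ_apply,
      Derivative.normalizedDerivOfComplex_sub F G hF hG]
    exact ih (Derivative.normalizedDerivOfComplex_mdifferentiable hF)
      (Derivative.normalizedDerivOfComplex_mdifferentiable hG)

theorem iterate_D_smul (n : ℕ) (c : ℂ) {F : ℍ → ℂ} (hF : MDiff F) :
    D^[n] (c • F) = c • D^[n] F := by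
  induction n generalizing F with
  | zero => simp
  | succ n ih =>
    rw [Function.iterate_succ_apply, Function.iterate_succ_apply,
      Derivative.normalizedDerivOfComplex_smul c F hF]
    exact ih (Derivative.normalizedDerivOfComplex_mdifferentiable hF)

theorem mdiff_slash {F : ℍ → ℂ} (hF : MDiff F) (k : ℤ) {g : GL (Fin 2) ℝ} (hg : 0 < g.val.det) :
    MDiff (F ∣[k] g) :=
  have _ := hg
  hF.slash k g

/-- `D` of the denominator function is constant. -/
theorem D_denom (g : GL (Fin 2) ℝ) :
    D (fun τ : ℍ => denom g τ) = fun _ => (2 * Real.pi * I)⁻¹ * (g 1 0 : ℂ) := by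
  ext z
  simp only [Derivative.normalizedDerivOfComplex]
  congr 1
  have h := UpperHalfPlane.hasDerivAt_denom_zpow g 1 z
  have heq : ((fun τ : ℍ => denom g τ) ∘ ofComplex) =ᶠ[𝓝 (z : ℂ)]
      fun w => denom g w ^ (1 : ℤ) := by
    filter_upwards [isOpen_upperHalfPlaneSet.mem_nhds z.im_pos] with w hw
    simp [ofComplex_apply_of_im_pos hw]
  rw [heq.deriv_eq, h.deriv]
  simp

/-- Leibniz rule for `l * G` when `D (D l) = 0`. -/
theorem iterate_D_mul_of_D_D_eq_zero (n : ℕ) {l G : ℍ → ℂ} (hl : MDiff l) (hG : MDiff G)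
    (hll : D (D l) = 0) :
    D^[n + 1] (l * G) = l * D^[n + 1] G + ((n + 1 : ℕ) : ℂ) • (D l * D^[n] G) := by
  have hDl : MDiff (D l) := Derivative.normalizedDerivOfComplex_mdifferentiable hl
  induction n with
  | zero =>
    simp only [zero_add, Function.iterate_one, Function.iterate_zero, id_eq, Nat.cast_one,
      one_smul]
    rw [Derivative.normalizedDerivOfComplex_mul l G hl hG]
    ring
  | succ n ih =>
    have h1 : MDiff (D^[n + 1] G) := mdiff_iterate_D (n + 1) hG
    have h0 : MDiff (D^[n] G) := mdiff_iterate_D n hG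
    rw [Function.iterate_succ_apply', ih,
      Derivative.normalizedDerivOfComplex_add _ _ (hl.mul h1) ((hDl.mul h0).const_smul _),
      Derivative.normalizedDerivOfComplex_mul l _ hl h1,
      Derivative.normalizedDerivOfComplex_smul _ _ (hDl.mul h0),
      Derivative.normalizedDerivOfComplex_mul _ _ hDl h0, hll,
      ← Function.iterate_succ_apply' D (n + 1) G, ← Function.iterate_succ_apply' D n G]
    ext z
    simp only [Pi.add_apply, Pi.mul_apply, Pi.smul_apply, Pi.zero_apply, smul_eq_mul]
    push_cast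
    ring

/-- Lowering the weight by one multiplies by the denominator. -/
theorem slash_pred_eq (k : ℤ) (F : ℍ → ℂ) (γ : SL(2, ℤ)) :
    F ∣[k - 1] γ = (fun τ : ℍ => denom γ τ) * (F ∣[k] γ) := by
  ext z
  simp only [ModularForm.SL_slash_apply, Pi.mul_apply]
  have hz := denom_ne_zero γ z
  rw [neg_sub, sub_eq_add_neg 1 k, zpow_add₀ hz, zpow_one]
  ring

/-- Bol's identity for `SL(2, ℤ)`. -/
theorem iterate_D_slash_SL (n : ℕ) {F : ℍ → ℂ} (hF : MDiff F) (γ : SL(2, ℤ)) :
    D^[n] (F ∣[(1 - n : ℤ)] γ) = (D^[n] F) ∣[(1 + n : ℤ)] γ := by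
  induction n with
  | zero => simp
  | succ n ih =>
    set l : ℍ → ℂ := fun τ => denom γ τ with hl
    have hlM : MDiff l := mdifferentiable_denom _
    have hDl : D l = fun _ => (2 * Real.pi * I)⁻¹ * ((γ 1 0 : ℤ) : ℂ) := by
      rw [hl, D_denom]; simp
    have hDDl : D (D l) = 0 := by
      rw [hDl]; exact Derivative.normalizedDerivOfComplex_const _
    have hG : MDiff (F ∣[(1 - n : ℤ)] γ) := hF.slash _ _
    have e1 : F ∣[(1 - ((n + 1 : ℕ) : ℤ))] γ = l * (F ∣[(1 - n : ℤ)] γ) := by
      have := slash_pred_eq (1 - n : ℤ) F γ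
      rw [← this]
      congr 1
      push_cast; ring
    have e2 : (D^[n + 1] F) ∣[(1 + ((n + 1 : ℕ) : ℤ))] γ =
        l * ((D^[n + 1] F) ∣[(1 + n + 2 : ℤ)] γ) := by
      have := slash_pred_eq (1 + n + 2 : ℤ) (D^[n + 1] F) γ
      rw [← this]
      congr 1
      push_cast; ring
    rw [e1, iterate_D_mul_of_D_D_eq_zero n hlM hG hDDl, Function.iterate_succ_apply' D n, ih,
      Derivative.normalizedDerivOfComplex_SL_slash (mdiff_iterate_D n hF), hDl, e2,
      Function.iterate_succ_apply' D n]
    ext z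
    have hz : denom γ z ≠ 0 := denom_ne_zero γ z
    simp only [Pi.add_apply, Pi.mul_apply, Pi.sub_apply, Pi.smul_apply, smul_eq_mul, hl]
    push_cast
    field_simp
    ring

theorem iterate_D_slash_upper (n : ℕ) {F : ℍ → ℂ} (hF : MDiff F) {g : GL (Fin 2) ℝ}
    (hg : 0 < g.val.det) (hc : g 1 0 = 0) (κ : ℤ) :
    D^[n] (F ∣[κ] g) = ((g.val.det : ℂ)⁻¹ ^ n) • ((D^[n] F) ∣[κ + 2 * n] g) := by
  induction n generalizing F κ with
  | zero => simp
  | succ n ih =>
    have hDF : MDiff (D F) := Derivative.normalizedDerivOfComplex_mdifferentiable hF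
    have h1 : D (F ∣[κ] g) = (g.val.det : ℂ)⁻¹ • ((D F) ∣[κ + 2] g) := by
      rw [Derivative.normalizedDerivOfComplex_slash hF hg]
      ext z
      simp [hc]
    rw [Function.iterate_succ_apply, h1, iterate_D_smul n _ (hDF.slash _ _), ih hDF (κ + 2),
      Function.iterate_succ_apply, smul_smul]
    have e1 : ((g.val.det : ℂ))⁻¹ * ((g.val.det : ℂ))⁻¹ ^ n = ((g.val.det : ℂ))⁻¹ ^ (n + 1) := by
      ring
    have e2 : κ + 2 + 2 * (n : ℤ) = κ + 2 * ((n + 1 : ℕ) : ℤ) := by push_cast; ring
    rw [e1, e2]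

end Fermat.Agent.S22
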