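import Mathlib
import Fermat.Prelude.Def_CuspForm_HeckeAlgebra

set_option autoImplicit false

open UpperHalfPlane hiding I
open Complex Filter Function
open scoped Manifold MatrixGroups ModularForm Topology Derivative

namespace Fermat.Agent.S22

/-- A periodic holomorphic function on the upper half plane vanishing at `i∞` has a
periodic holomorphic `D`-primitive vanishing at `i∞`. -/
theorem exists_primitive_periodic {h : ℝ} (hh : 0 < h) {φ : ℍ → ℂ}
    (hper : Periodic (φ ∘ ofComplex) h) (hhol : MDiff φ) (hzero : IsZeroAtImInfty φ) :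
    ∃ Φ : ℍ → ℂ, Periodic (Φ ∘ ofComplex) h ∧ MDiff Φ ∧ IsZeroAtImInfty Φ ∧ D Φ = φ := by
  have hbdd : IsBoundedAtImInfty φ := hzero.isBoundedAtImInfty
  set ψ : ℂ → ℂ := cuspFunction h φ with hψ
  have hψdiff : DifferentiableOn ℂ ψ (Metric.ball 0 1) :=
    differentiableOn_cuspFunction_ball hh hper hhol hbdd
  have hψ0 : ψ 0 = 0 := hzero.cuspFunction_apply_zero hh
  have hball : Metric.ball (0 : ℂ) 1 ∈ 𝓝 (0 : ℂ) := Metric.ball_mem_nhds 0 one_pos
  have hgdiff : DifferentiableOn ℂ (dslope ψ 0) (Metric.ball 0 1) :=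
    (Complex.differentiableOn_dslope hball).mpr hψdiff
  obtain ⟨Ψ, hΨ0, hΨ⟩ := hgdiff.isExactOn_ball.with_val_at 0 0
  have hq_mem : ∀ w : ℂ, 0 < w.im → Periodic.qParam h w ∈ Metric.ball (0 : ℂ) 1 := by
    intro w hw
    rw [mem_ball_zero_iff]
    exact Periodic.norm_qParam_lt_one hh hw
  have hq_add : ∀ w : ℂ, Periodic.qParam h (w + h) = Periodic.qParam h w := by
    intro w
    simp only [Periodic.qParam]
    have : 2 * (Real.pi : ℂ) * I * (w + h) / h = 2 * Real.pi * I * w / h + 2 * Real.pi * I := by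
      have hh' : (h : ℂ) ≠ 0 := by exact_mod_cast hh.ne'
      field_simp
    rw [this, Complex.exp_add, Complex.exp_two_pi_mul_I, mul_one]
  refine ⟨fun τ => (h : ℂ) * Ψ (Periodic.qParam h τ), ?_, ?_, ?_, ?_⟩
  · -- periodicity
    intro w
    simp only [Function.comp_apply]
    by_cases hw : 0 < w.im
    · have hw' : 0 < (w + h).im := by simpa using hw
      rw [ofComplex_apply_of_im_pos hw, ofComplex_apply_of_im_pos hw']
      exact congrArg (fun x => (h : ℂ) * Ψ x) (hq_add w)
    · have hw0 : w.im ≤ 0 := not_lt.mp hw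
      have hw' : (w + h).im ≤ 0 := by simpa using hw0
      rw [ofComplex_apply_eq_of_im_nonpos hw' hw0]
  · -- holomorphy
    rw [UpperHalfPlane.mdifferentiable_iff]
    intro w hw
    have hw' : 0 < w.im := hw
    have hd : DifferentiableAt ℂ (fun w : ℂ => (h : ℂ) * Ψ (Periodic.qParam h w)) w := by
      have h1 : DifferentiableAt ℂ Ψ (Periodic.qParam h w) :=
        (hΨ _ (hq_mem w hw')).differentiableAt
      have h2 : DifferentiableAt ℂ (Periodic.qParam h) w :=
        (Periodic.differentiable_qParam (h := h)) w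
      exact (h1.comp w h2).const_mul _
    refine (hd.congr_of_eventuallyEq ?_).differentiableWithinAt
    filter_upwards [isOpen_upperHalfPlaneSet.mem_nhds hw'] with v hv
    simp [ofComplex_apply_of_im_pos hv]
  · -- vanishing at infinity
    have hΨc : ContinuousAt Ψ 0 := (hΨ 0 (Metric.mem_ball_self one_pos)).continuousAt
    have h1 : Tendsto (fun τ : ℍ => Ψ (Periodic.qParam h τ)) atImInfty (𝓝 (Ψ 0)) :=
      hΨc.tendsto.comp (qParam_tendsto_atImInfty hh)
    have h2 : Tendsto (fun τ : ℍ => (h : ℂ) * Ψ (Periodic.qParam h τ)) atImInfty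
        (𝓝 ((h : ℂ) * Ψ 0)) := h1.const_mul _
    rw [hΨ0, mul_zero] at h2
    exact h2
  · -- derivative
    ext z
    simp only [Derivative.normalizedDerivOfComplex]
    have hz : 0 < (z : ℂ).im := z.im_pos
    have heq : ((fun τ : ℍ => (h : ℂ) * Ψ (Periodic.qParam h τ)) ∘ ofComplex) =ᶠ[𝓝 (z : ℂ)]
        fun w : ℂ => (h : ℂ) * Ψ (Periodic.qParam h w) := by
      filter_upwards [isOpen_upperHalfPlaneSet.mem_nhds hz] with v hv
      simp [ofComplex_apply_of_im_pos hv]
    have hqd : HasDerivAt (Periodic.qParam h) (Periodic.qParam h z * (2 * Real.pi * I / h))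
        (z : ℂ) := by
      have h0 : HasDerivAt (fun w : ℂ => 2 * (Real.pi : ℂ) * I * w / h)
          (2 * Real.pi * I / h) (z : ℂ) := by
        have := ((hasDerivAt_id (z : ℂ)).const_mul (2 * (Real.pi : ℂ) * I)).div_const (h : ℂ)
        simpa using this
      exact h0.cexp
    have hΨd := hΨ _ (hq_mem z hz)
    have hcomp : HasDerivAt (fun w : ℂ => (h : ℂ) * Ψ (Periodic.qParam h w))
        ((h : ℂ) * (dslope ψ 0 (Periodic.qParam h z) *
          (Periodic.qParam h z * (2 * Real.pi * I / h)))) (z : ℂ) :=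
      (hΨd.comp (z : ℂ) hqd).const_mul _
    rw [heq.deriv_eq, hcomp.deriv]
    have hqne : Periodic.qParam h (z : ℂ) ≠ 0 := Periodic.qParam_ne_zero _
    have hds : dslope ψ 0 (Periodic.qParam h z) * Periodic.qParam h z = φ z := by
      have := sub_smul_dslope ψ 0 (Periodic.qParam h z)
      rw [hψ0, sub_zero, sub_zero, smul_eq_mul] at this
      rw [mul_comm, this, hψ]
      exact eq_cuspFunction z hh.ne' hper
    have hh' : (h : ℂ) ≠ 0 := by exact_mod_cast hh.ne'
    have hpi : (2 * (Real.pi : ℂ) * I) ≠ 0 := Complex.two_pi_I_ne_zero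
    rw [← hds]
    field_simp

/-- Iterated version of `exists_primitive_periodic`. -/
theorem exists_iterated_primitive {h : ℝ} (hh : 0 < h) (n : ℕ) {φ : ℍ → ℂ}
    (hper : Periodic (φ ∘ ofComplex) h) (hhol : MDiff φ) (hzero : IsZeroAtImInfty φ) :
    ∃ Φ : ℍ → ℂ, Periodic (Φ ∘ ofComplex) h ∧ MDiff Φ ∧ IsZeroAtImInfty Φ ∧ D^[n] Φ = φ := by
  induction n generalizing φ with
  | zero => exact ⟨φ, hper, hhol, hzero, rfl⟩
  | succ n ih =>
    obtain ⟨Φ₁, hper₁, hhol₁, hzero₁, hD₁⟩ := ih hper hhol hzero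
    obtain ⟨Φ, hperΦ, hholΦ, hzeroΦ, hDΦ⟩ := exists_primitive_periodic hh hper₁ hhol₁ hzero₁
    refine ⟨Φ, hperΦ, hholΦ, hzeroΦ, ?_⟩
    rw [Function.iterate_succ_apply, hDΦ, hD₁]

end Fermat.Agent.S22
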