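import Fermat.Agent.S22.HeckeDefs
import Fermat.Agent.S22.Bol
import Fermat.Agent.S22.Prim
import Fermat.Prelude.Thm_CongruenceSubgroup_one_mem_strictPeriods_Gamma0

set_option autoImplicit false

open UpperHalfPlane hiding I
open Complex Filter Function
open scoped Manifold MatrixGroups ModularForm Topology Derivative
open Polynomial Matrix.SpecialLinearGroup

namespace Fermat.Agent.S22

variable {N : ℕ} [NeZero N] {m : ℕ}

namespace Eichler

omit [NeZero N] in
/-- A cusp form on `Γ₀(N)` is `1`-periodic. -/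
theorem periodic_cuspForm {k : ℤ} (f : CuspForm (CongruenceSubgroup.Gamma0 N) k) :
    Periodic (⇑f ∘ ofComplex) 1 := by
  have h := SlashInvariantFormClass.periodic_comp_ofComplex f
    (CongruenceSubgroup.one_mem_strictPeriods_Gamma0 N)
  simpa using h

/-- existence of the Eichler integral, with periodicity -/
theorem exists_eichler (f : CuspForm (CongruenceSubgroup.Gamma0 N) ((m : ℤ) + 2)) :
    ∃ F : ℍ → ℂ, Periodic (F ∘ ofComplex) 1 ∧ MDiff F ∧ IsZeroAtImInfty F ∧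
      D^[m + 1] F = ⇑f :=
  exists_iterated_primitive one_pos (m + 1) (periodic_cuspForm f) (CuspFormClass.holo f)
    (CuspFormClass.zero_at_infty f)

theorem isZero_sub {F G : ℍ → ℂ} (hF0 : IsZeroAtImInfty F) (hG0 : IsZeroAtImInfty G) :
    IsZeroAtImInfty (F - G) := by
  have h : Tendsto (fun x => F x - G x) atImInfty (𝓝 (0 - 0)) := Tendsto.sub hF0 hG0
  rw [sub_zero] at h
  exact h

theorem isZero_add {F G : ℍ → ℂ} (hF0 : IsZeroAtImInfty F) (hG0 : IsZeroAtImInfty G) :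
    IsZeroAtImInfty (F + G) := by
  have h : Tendsto (fun x => F x + G x) atImInfty (𝓝 (0 + 0)) := Tendsto.add hF0 hG0
  rw [add_zero] at h
  exact h

/-- uniqueness of iterated primitives vanishing at `i∞` -/
theorem eq_of_iterate_D_eq {n : ℕ} {F G : ℍ → ℂ} (hF : MDiff F) (hG : MDiff G)
    (hF0 : IsZeroAtImInfty F) (hG0 : IsZeroAtImInfty G) (h : D^[n + 1] F = D^[n + 1] G) :
    F = G := by
  have hsub : D^[n + 1] (F - G) = 0 := by
    rw [iterate_D_sub (n + 1) hF hG, h, sub_self]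
  have hpoly : IsPolyFun n (F - G) := isPolyFun_of_iterate_D_eq_zero n (hF.sub hG) hsub
  have h0 : IsZeroAtImInfty (F - G) := isZero_sub hF0 hG0
  have := eq_zero_of_isPolyFun_of_isZeroAtImInfty hpoly h0
  exact sub_eq_zero.mp this

end Eichler

theorem eichler_spec (f : CuspForm (CongruenceSubgroup.Gamma0 N) ((m : ℤ) + 2)) :
    MDiff (eichler m f) ∧ IsZeroAtImInfty (eichler m f) ∧ D^[m + 1] (eichler m f) = ⇑f := by
  have h : ∃ F : ℍ → ℂ, MDiff F ∧ IsZeroAtImInfty F ∧ D^[m + 1] F = ⇑f := by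
    obtain ⟨F, -, h1, h2, h3⟩ := Eichler.exists_eichler f
    exact ⟨F, h1, h2, h3⟩
  unfold eichler
  rw [dif_pos h]
  exact h.choose_spec

theorem eichler_unique (f : CuspForm (CongruenceSubgroup.Gamma0 N) ((m : ℤ) + 2)) {F : ℍ → ℂ}
    (hF : MDiff F) (h0 : IsZeroAtImInfty F) (hD : D^[m + 1] F = ⇑f) : F = eichler m f := by
  obtain ⟨h1, h2, h3⟩ := eichler_spec f
  exact Eichler.eq_of_iterate_D_eq hF h1 h0 h2 (hD.trans h3.symm)

theorem eichler_periodic (f : CuspForm (CongruenceSubgroup.Gamma0 N) ((m : ℤ) + 2)) :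
    Periodic (eichler m f ∘ ofComplex) 1 := by
  obtain ⟨F, hper, h1, h2, h3⟩ := Eichler.exists_eichler f
  rw [← eichler_unique f h1 h2 h3]
  exact hper

theorem eichler_add (f g : CuspForm (CongruenceSubgroup.Gamma0 N) ((m : ℤ) + 2)) :
    eichler m (f + g) = eichler m f + eichler m g := by
  obtain ⟨f1, f2, f3⟩ := eichler_spec f
  obtain ⟨g1, g2, g3⟩ := eichler_spec g
  symm
  apply eichler_unique (f + g) (f1.add g1) (Eichler.isZero_add f2 g2)
  rw [iterate_D_add (m + 1) f1 g1, f3, g3]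
  rfl

namespace Eichler

omit [NeZero N] in
/-- slash invariance of a cusp form on `Γ₀(N)` under `Γ₀(N) ⊆ SL(2, ℤ)` -/
theorem slash_cuspForm {k : ℤ} (f : CuspForm (CongruenceSubgroup.Gamma0 N) k) (γ : Gam N) :
    (⇑f) ∣[k] (γ : SL(2, ℤ)) = ⇑f := by
  rw [ModularForm.SL_slash]
  exact SlashInvariantForm.slash_action_eqn f _ (Subgroup.mem_map_of_mem _ γ.2)

theorem mdiff_slash_SL {F : ℍ → ℂ} (hF : MDiff F) (k : ℤ) (γ : SL(2, ℤ)) :
    MDiff (F ∣[k] γ) := by
  rw [ModularForm.SL_slash]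
  exact hF.slash k _

theorem isPolyFun_period (f : CuspForm (CongruenceSubgroup.Gamma0 N) ((m : ℤ) + 2))
    (γ : Gam N) :
    IsPolyFun m (eichler m f ∣[-(m : ℤ)] (γ : SL(2, ℤ)) - eichler m f) := by
  obtain ⟨h1, h2, h3⟩ := eichler_spec f
  have hs : MDiff (eichler m f ∣[-(m : ℤ)] (γ : SL(2, ℤ))) := mdiff_slash_SL h1 _ _
  apply isPolyFun_of_iterate_D_eq_zero m (hs.sub h1)
  rw [iterate_D_sub (m + 1) hs h1, h3]
  have hb := iterate_D_slash_SL (m + 1) h1 (γ : SL(2, ℤ))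
  have e1 : (1 - ((m + 1 : ℕ) : ℤ)) = -(m : ℤ) := by push_cast; ring
  have e2 : (1 + ((m + 1 : ℕ) : ℤ)) = (m : ℤ) + 2 := by push_cast; ring
  rw [e1, e2, h3, slash_cuspForm f γ] at hb
  rw [hb, sub_self]

/-- The weight `-m` slash of a polynomial function by `γ ∈ SL(2, ℤ)` is computed by
`polyActSL`. -/
theorem eval_polyActSL {p : ℂ[X]} (hp : p.natDegree ≤ m) (γ : SL(2, ℤ)) (z : ℍ) :
    (polyActSL m γ p).eval (z : ℂ) = p.eval ((γ • z : ℍ) : ℂ) * denom γ z ^ m := by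
  have hden : denom γ z = ((γ 1 0 : ℤ) : ℂ) * z + ((γ 1 1 : ℤ) : ℂ) := by
    rw [ModularGroup.denom_apply]
  have hz : ((γ 1 0 : ℤ) : ℂ) * z + ((γ 1 1 : ℤ) : ℂ) ≠ 0 := hden ▸ denom_ne_zero γ z
  unfold polyActSL
  rw [eval_polyAct _ _ _ _ hp _ hz, UpperHalfPlane.coe_specialLinearGroup_apply, hden]
  simp only [algebraMap_int_eq, Int.coe_castRingHom, ofReal_intCast]
  ring

theorem slash_neg_apply (F : ℍ → ℂ) (γ : SL(2, ℤ)) (z : ℍ) :
    (F ∣[-(m : ℤ)] γ) z = F (γ • z) * denom γ z ^ m := by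
  rw [ModularForm.SL_slash_apply, neg_neg, zpow_natCast]

end Eichler

theorem periodPoly_spec (f : CuspForm (CongruenceSubgroup.Gamma0 N) ((m : ℤ) + 2)) (γ : Gam N) :
    (periodPoly m f γ).natDegree ≤ m ∧
      ∀ z : ℍ, (eichler m f ∣[-(m : ℤ)] (γ : SL(2, ℤ)) - eichler m f) z =
        (periodPoly m f γ).eval (z : ℂ) := by
  have h := Eichler.isPolyFun_period f γ
  unfold periodPoly
  rw [dif_pos h]
  exact h.choose_spec

theorem periodPoly_add (f g : CuspForm (CongruenceSubgroup.Gamma0 N) ((m : ℤ) + 2)) :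
    periodPoly m (f + g) = periodPoly m f + periodPoly m g := by
  funext γ
  apply poly_eq_of_eval_eq_on_upperHalfPlane
  intro z
  rw [Pi.add_apply, eval_add, ← (periodPoly_spec f γ).2 z, ← (periodPoly_spec g γ).2 z,
    ← (periodPoly_spec (f + g) γ).2 z, eichler_add, SlashAction.add_slash]
  simp only [Pi.sub_apply, Pi.add_apply]
  ring

theorem isCocycle_periodPoly (f : CuspForm (CongruenceSubgroup.Gamma0 N) ((m : ℤ) + 2)) :
    IsCocycle N m (periodPoly m f) := by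
  refine ⟨fun γ => (periodPoly_spec f γ).1, fun γ₁ γ₂ => ?_⟩
  apply poly_eq_of_eval_eq_on_upperHalfPlane
  intro z
  have h12 := (periodPoly_spec f (γ₁ * γ₂)).2 z
  have h1 := (periodPoly_spec f γ₁).2 ((γ₂ : SL(2, ℤ)) • z)
  have h2 := (periodPoly_spec f γ₂).2 z
  rw [Subgroup.coe_mul, SlashAction.slash_mul] at h12
  simp only [Pi.sub_apply, Eichler.slash_neg_apply] at h12 h1 h2
  rw [eval_add, Eichler.eval_polyActSL (periodPoly_spec f γ₁).1, ← h12, ← h1, ← h2]
  ring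

end Fermat.Agent.S22
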