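import Fermat.Agent.S22.Eichler

set_option autoImplicit false

open UpperHalfPlane hiding I
open Complex Filter Function
open scoped Manifold MatrixGroups ModularForm Topology Derivative
open Polynomial Matrix.SpecialLinearGroup

namespace Fermat.Agent.S22

variable {N : ℕ} [NeZero N] {m : ℕ}

namespace HeckeT

theorem iterate_D_zero (n : ℕ) : D^[n] (0 : ℍ → ℂ) = 0 := by
  have h := iterate_D_smul n (0 : ℂ) (F := (0 : ℍ → ℂ)) mdifferentiable_const
  simpa using h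

theorem iterate_D_sum {ι : Type*} (n : ℕ) (s : Finset ι) (F : ι → ℍ → ℂ)
    (hF : ∀ i ∈ s, MDiff (F i)) :
    D^[n] (∑ i ∈ s, F i) = ∑ i ∈ s, D^[n] (F i) := by
  classical
  induction s using Finset.induction_on with
  | empty => simpa using iterate_D_zero n
  | insert a s ha ih =>
    rw [Finset.sum_insert ha, Finset.sum_insert ha,
      iterate_D_add n (hF a (Finset.mem_insert_self a s)), ih]
    · exact fun i hi => hF i (Finset.mem_insert_of_mem hi)
    · exact Finset.sum_induction _ (fun g : ℍ → ℂ => MDiff g) (fun _ _ ha hb => ha.add hb)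
        mdifferentiable_const (fun i hi => hF i (Finset.mem_insert_of_mem hi))

theorem det_val_heckeMatrix {p : ℕ} (hp : p ≠ 0) (j : ℕ) :
    (ModularForm.heckeMatrix p j).val.det = (p : ℝ) := by
  rw [← Matrix.GeneralLinearGroup.val_det_apply]
  exact ModularForm.det_heckeMatrix hp j

theorem det_val_heckeDiagMatrix {p : ℕ} (hp : p ≠ 0) :
    (ModularForm.heckeDiagMatrix p).val.det = (p : ℝ) := by
  rw [← Matrix.GeneralLinearGroup.val_det_apply]
  exact ModularForm.det_heckeDiagMatrix hp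

theorem heckeMatrix_one_zero {p : ℕ} (hp : p ≠ 0) (j : ℕ) :
    (ModularForm.heckeMatrix p j) 1 0 = 0 := by
  show ((ModularForm.heckeMatrix p j : GL (Fin 2) ℝ) : Matrix (Fin 2) (Fin 2) ℝ) 1 0 = 0
  rw [ModularForm.val_heckeMatrix hp]; rfl

theorem heckeDiagMatrix_one_zero {p : ℕ} (hp : p ≠ 0) :
    (ModularForm.heckeDiagMatrix p) 1 0 = 0 := by
  show ((ModularForm.heckeDiagMatrix p : GL (Fin 2) ℝ) : Matrix (Fin 2) (Fin 2) ℝ) 1 0 = 0
  rw [ModularForm.val_heckeDiagMatrix hp]; rfl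

theorem iterate_D_heckeT (n : ℕ) {F : ℍ → ℂ} (hF : MDiff F) (κ : ℤ) {p : ℕ} (hp : p ≠ 0) :
    D^[n] (ModularForm.heckeT κ p F) =
      ((p : ℂ)⁻¹ ^ n) • ModularForm.heckeT (κ + 2 * n) p (D^[n] F) := by
  have hpos : (0 : ℝ) < p := by exact_mod_cast Nat.pos_of_ne_zero hp
  have h1 : ∀ j, D^[n] (F ∣[κ] ModularForm.heckeMatrix p j) =
      ((p : ℂ)⁻¹ ^ n) • ((D^[n] F) ∣[κ + 2 * n] ModularForm.heckeMatrix p j) := by
    intro j
    have h := iterate_D_slash_upper n hF (g := ModularForm.heckeMatrix p j)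
      (by rw [det_val_heckeMatrix hp]; exact hpos) (heckeMatrix_one_zero hp j) κ
    rw [h, det_val_heckeMatrix hp]
    simp
  have h2 : D^[n] (F ∣[κ] ModularForm.heckeDiagMatrix p) =
      ((p : ℂ)⁻¹ ^ n) • ((D^[n] F) ∣[κ + 2 * n] ModularForm.heckeDiagMatrix p) := by
    have h := iterate_D_slash_upper n hF (g := ModularForm.heckeDiagMatrix p)
      (by rw [det_val_heckeDiagMatrix hp]; exact hpos) (heckeDiagMatrix_one_zero hp) κ
    rw [h, det_val_heckeDiagMatrix hp]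
    simp
  have hm1 : ∀ j, MDiff (F ∣[κ] ModularForm.heckeMatrix p j) := fun j => hF.slash _ _
  have hm2 : MDiff (F ∣[κ] ModularForm.heckeDiagMatrix p) := hF.slash _ _
  have hm3 : MDiff (∑ j ∈ Finset.range p, F ∣[κ] ModularForm.heckeMatrix p j) :=
    Finset.sum_induction _ (fun g : ℍ → ℂ => MDiff g) (fun _ _ ha hb => ha.add hb)
      mdifferentiable_const (fun j _ => hm1 j)
  rw [ModularForm.heckeT_def, ModularForm.heckeT_def, iterate_D_add n hm3 hm2,
    iterate_D_sum n _ _ (fun j _ => hm1 j), h2, smul_add, Finset.smul_sum]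
  congr 1
  exact Finset.sum_congr rfl fun j _ => h1 j

theorem smul_slash_hRep_eval {p : ℕ} (hp : p ≠ 0) {q : ℂ[X]} (hq : q.natDegree ≤ m)
    (x : OnePoint (ZMod p)) (z : ℍ) :
    (p : ℂ) ^ (m + 1) * ((fun w : ℍ => q.eval (w : ℂ)) ∣[-(m : ℤ)] hRep p x) z =
      (polyActRep m p x q).eval (z : ℂ) := by
  have hpC : (p : ℂ) ≠ 0 := by exact_mod_cast hp
  induction x using OnePoint.rec with
  | infty =>
    show (p : ℂ) ^ (m + 1) *
      ((fun w : ℍ => q.eval (w : ℂ)) ∣[-(m : ℤ)] ModularForm.heckeDiagMatrix p) z =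
        (polyAct m p 0 0 1 q).eval (z : ℂ)
    rw [ModularForm.slash_heckeDiagMatrix_apply _ hp, ModularForm.coe_heckeDiagMatrix_smul hp,
      eval_polyAct _ _ _ _ hq _ (by simp)]
    have e : (p : ℂ) ^ (m + 1) * (p : ℂ) ^ (-(m : ℤ) - 1) = 1 := by
      rw [← zpow_natCast, ← zpow_add₀ hpC]
      have : ((m + 1 : ℕ) : ℤ) + (-(m : ℤ) - 1) = 0 := by push_cast; ring
      rw [this, zpow_zero]
    rw [← mul_assoc, e]
    simp
  | coe j =>
    show (p : ℂ) ^ (m + 1) *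
      ((fun w : ℍ => q.eval (w : ℂ)) ∣[-(m : ℤ)] ModularForm.heckeMatrix p j.val) z =
        (polyAct m 1 j.val 0 p q).eval (z : ℂ)
    rw [ModularForm.slash_heckeMatrix_apply _ hp, ModularForm.coe_heckeMatrix_smul hp,
      eval_polyAct _ _ _ _ hq _ (by simpa using hpC)]
    rw [← mul_assoc, pow_succ, mul_assoc ((p : ℂ) ^ m), mul_inv_cancel₀ hpC, mul_one]
    simp

end HeckeT

theorem eichler_heckeT {p : ℕ} (hp : p.Prime) (hpN : ¬ p ∣ N)
    (f : CuspForm (CongruenceSubgroup.Gamma0 N) ((m : ℤ) + 2)) :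
    eichler m (CuspForm.heckeTLin ((m : ℤ) + 2) hp hpN f) =
      ((p : ℂ) ^ (m + 1)) • ModularForm.heckeT (-(m : ℤ)) p (eichler m f) := by
  obtain ⟨hE, hE0, hED⟩ := eichler_spec f
  have hp0 : p ≠ 0 := hp.ne_zero
  have hpC : (p : ℂ) ≠ 0 := by exact_mod_cast hp0
  have hmd : MDiff (ModularForm.heckeT (-(m : ℤ)) p (eichler m f)) :=
    ModularForm.mdifferentiable_heckeT hE _ _
  symm
  apply eichler_unique
  · exact hmd.const_smul _
  · exact (P2MW.S_ModularForm_isBoundedAtImInfty_heckeT.M4cP1W2.isZeroAtImInfty_heckeT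
      (-(m : ℤ)) p hE0).smul _
  · rw [iterate_D_smul _ _ hmd, HeckeT.iterate_D_heckeT _ hE _ hp0, hED, smul_smul]
    have e1 : (p : ℂ) ^ (m + 1) * ((p : ℂ)⁻¹ ^ (m + 1)) = 1 := by
      rw [← mul_pow, mul_inv_cancel₀ hpC, one_pow]
    have e2 : -(m : ℤ) + 2 * ((m + 1 : ℕ) : ℤ) = (m : ℤ) + 2 := by push_cast; ring
    rw [e1, one_smul, e2]
    rfl

theorem periodPoly_heckeT {p : ℕ} [Fact p.Prime] (hpN : ¬ p ∣ N)
    (f : CuspForm (CongruenceSubgroup.Gamma0 N) ((m : ℤ) + 2)) :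
    periodPoly m (CuspForm.heckeTLin ((m : ℤ) + 2) Fact.out hpN f) =
      heckeTOp N m p hpN (periodPoly m f) := by
  have : NeZero p := ⟨(Fact.out : p.Prime).ne_zero⟩
  have hp0 : p ≠ 0 := (Fact.out : p.Prime).ne_zero
  funext γ
  apply poly_eq_of_eval_eq_on_upperHalfPlane
  intro z
  rw [← (periodPoly_spec _ γ).2 z, eichler_heckeT Fact.out hpN f]
  set E := eichler m f with hEdef
  have hsum : ModularForm.heckeT (-(m : ℤ)) p E =
      ∑ x : OnePoint (ZMod p), E ∣[-(m : ℤ)] hRep p x :=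
    P2MW.S_ModularForm_heckeT_slash_eq_self_of_mem_Gamma0.ModularForm.HeckeSlashInvariance.heckeT_eq_sum_onePoint
      _ _
  have h2 : ∑ x : OnePoint (ZMod p), E ∣[-(m : ℤ)] hRep p x =
      ∑ x : OnePoint (ZMod p), E ∣[-(m : ℤ)] hRep p (redMat p (γ : SL(2, ℤ)) • x) :=
    (Equiv.sum_comp (MulAction.toPerm (redMat p (γ : SL(2, ℤ))))
      (fun x => E ∣[-(m : ℤ)] hRep p x)).symm
  have key : (((p : ℂ) ^ (m + 1)) • ModularForm.heckeT (-(m : ℤ)) p E) ∣[-(m : ℤ)]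
        (γ : SL(2, ℤ)) - ((p : ℂ) ^ (m + 1)) • ModularForm.heckeT (-(m : ℤ)) p E =
      ((p : ℂ) ^ (m + 1)) • ∑ x : OnePoint (ZMod p),
        (E ∣[-(m : ℤ)] ((gamT hpN γ x : Gam N) : SL(2, ℤ)) - E) ∣[-(m : ℤ)]
          hRep p (redMat p (γ : SL(2, ℤ)) • x) := by
    rw [ModularForm.SL_smul_slash, ← smul_sub]
    congr 1
    calc ModularForm.heckeT (-(m : ℤ)) p E ∣[-(m : ℤ)] (γ : SL(2, ℤ)) -
          ModularForm.heckeT (-(m : ℤ)) p E
        = (∑ x : OnePoint (ZMod p), (E ∣[-(m : ℤ)] hRep p x) ∣[-(m : ℤ)] (γ : SL(2, ℤ))) -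
          ∑ x : OnePoint (ZMod p), E ∣[-(m : ℤ)] hRep p (redMat p (γ : SL(2, ℤ)) • x) := by
          rw [hsum, SlashAction.sum_slash, ← h2]
      _ = _ := by
          rw [← Finset.sum_sub_distrib]
          refine Finset.sum_congr rfl fun x _ => ?_
          have hSL : ∀ (F : ℍ → ℂ) (g : SL(2, ℤ)),
              F ∣[-(m : ℤ)] g = F ∣[-(m : ℤ)] (mapGL ℝ g) := fun _ _ => rfl
          rw [hSL, ← SlashAction.slash_mul, gamT_spec hpN γ x,
            SlashAction.slash_mul, sub_eq_add_neg, sub_eq_add_neg, SlashAction.add_slash,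
            SlashAction.neg_slash, hSL]
  rw [key, Pi.smul_apply, Finset.sum_apply, smul_eq_mul, Finset.mul_sum]
  unfold heckeTOp
  rw [eval_finsetSum]
  refine Finset.sum_congr rfl fun x _ => ?_
  have hfun : (E ∣[-(m : ℤ)] ((gamT hpN γ x : Gam N) : SL(2, ℤ)) - E) =
      fun w : ℍ => (periodPoly m f (gamT hpN γ x)).eval (w : ℂ) :=
    funext fun w => (periodPoly_spec f _).2 w
  rw [hfun]
  exact HeckeT.smul_slash_hRep_eval hp0 (periodPoly_spec f _).1 _ z

end Fermat.Agent.S22
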