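import Fermat.Agent.S22.Eichler

set_option autoImplicit false

open UpperHalfPlane hiding I
open Complex Filter Function
open scoped Manifold MatrixGroups ModularForm Topology Derivative
open Polynomial Matrix.SpecialLinearGroup

namespace Fermat.Agent.S22

variable {N : ℕ} [NeZero N] {m : ℕ}

namespace UAux

theorem mdiff_finset_sum {ι : Type*} (s : Finset ι) (F : ι → ℍ → ℂ) (hF : ∀ i ∈ s, MDiff (F i)) :
    MDiff (∑ i ∈ s, F i) := by
  classical
  induction s using Finset.induction_on with
  | empty =>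
    simp only [Finset.sum_empty]
    exact mdifferentiable_const
  | insert a s ha ih =>
    rw [Finset.sum_insert ha]
    exact (hF a (Finset.mem_insert_self a s)).add
      (ih fun i hi => hF i (Finset.mem_insert_of_mem hi))

theorem iterate_D_zero (n : ℕ) : D^[n] (0 : ℍ → ℂ) = 0 := by
  induction n with
  | zero => simp
  | succ n ih =>
    rw [Function.iterate_succ_apply]
    have : D (0 : ℍ → ℂ) = 0 := Derivative.normalizedDerivOfComplex_const 0
    rw [this, ih]

theorem iterate_D_finset_sum {ι : Type*} (n : ℕ) (s : Finset ι) (F : ι → ℍ → ℂ)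
    (hF : ∀ i ∈ s, MDiff (F i)) :
    D^[n] (∑ i ∈ s, F i) = ∑ i ∈ s, D^[n] (F i) := by
  classical
  induction s using Finset.induction_on with
  | empty => simp [iterate_D_zero]
  | insert a s ha ih =>
    rw [Finset.sum_insert ha, Finset.sum_insert ha,
      iterate_D_add n (hF a (Finset.mem_insert_self a s))
        (mdiff_finset_sum s F fun i hi => hF i (Finset.mem_insert_of_mem hi)),
      ih fun i hi => hF i (Finset.mem_insert_of_mem hi)]

theorem isZeroAtImInfty_finset_sum {ι : Type*} (s : Finset ι) (F : ι → ℍ → ℂ)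
    (hF : ∀ i ∈ s, IsZeroAtImInfty (F i)) : IsZeroAtImInfty (∑ i ∈ s, F i) := by
  classical
  induction s using Finset.induction_on with
  | empty =>
    simp only [Finset.sum_empty]
    exact zero_zeroAtFilter _
  | insert a s ha ih =>
    rw [Finset.sum_insert ha]
    exact (hF a (Finset.mem_insert_self a s)).add
      (ih fun i hi => hF i (Finset.mem_insert_of_mem hi))

theorem heckeMatrix_one_zero (q j : ℕ) : (ModularForm.heckeMatrix q j) 1 0 = 0 := by
  rcases eq_or_ne q 0 with rfl | hq
  · simp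
  · have := ModularForm.val_heckeMatrix hq j
    have h2 := congrFun (congrFun this 1) 0
    simpa using h2

theorem det_val_heckeMatrix {q : ℕ} (hq : q ≠ 0) (j : ℕ) :
    (ModularForm.heckeMatrix q j).val.det = (q : ℝ) := by
  rw [ModularForm.val_heckeMatrix hq, Matrix.det_fin_two_of]
  ring

end UAux

open UAux in
theorem eichler_heckeU {q : ℕ} [NeZero q] (hqN : q ∣ N)
    (f : CuspForm (CongruenceSubgroup.Gamma0 N) ((m : ℤ) + 2)) :
    eichler m (CuspForm.heckeULin ((m : ℤ) + 2) hqN f) =
      ((q : ℂ) ^ (m + 1)) • ModularForm.heckeU (-(m : ℤ)) q (eichler m f) := by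
  obtain ⟨hF, h0, hD⟩ := eichler_spec f
  have hq : q ≠ 0 := NeZero.ne q
  have hqC : (q : ℂ) ≠ 0 := by exact_mod_cast hq
  have hslash : ∀ j : ℕ, MDiff (eichler m f ∣[-(m : ℤ)] ModularForm.heckeMatrix q j) :=
    fun j => hF.slash _ _
  symm
  apply eichler_unique
  · exact (ModularForm.mdifferentiable_heckeU hF _ q).const_smul _
  · apply ZeroAtFilter.smul
    rw [ModularForm.heckeU_def]
    exact isZeroAtImInfty_finset_sum _ _ fun j _ =>
      IsZeroAtImInfty.slash _ (heckeMatrix_one_zero q j) h0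
  · rw [iterate_D_smul _ _ (ModularForm.mdifferentiable_heckeU hF _ q), ModularForm.heckeU_def,
      iterate_D_finset_sum _ _ _ fun j _ => hslash j, CuspForm.coe_heckeULin_apply,
      ModularForm.heckeU_def, Finset.smul_sum]
    refine Finset.sum_congr rfl fun j _ => ?_
    have hdetpos : 0 < (ModularForm.heckeMatrix q j).val.det := by
      rw [det_val_heckeMatrix hq]
      exact_mod_cast Nat.pos_of_ne_zero hq
    rw [iterate_D_slash_upper (m + 1) hF hdetpos (heckeMatrix_one_zero q j) (-(m : ℤ)), hD,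
      det_val_heckeMatrix hq, smul_smul]
    have e1 : (q : ℂ) ^ (m + 1) * (((q : ℝ) : ℂ))⁻¹ ^ (m + 1) = 1 := by
      rw [← mul_pow]
      simp [hqC]
    have e2 : -(m : ℤ) + 2 * ((m + 1 : ℕ) : ℤ) = (m : ℤ) + 2 := by push_cast; ring
    rw [e1, e2, one_smul]

open UAux in
theorem periodPoly_heckeU {q : ℕ} [NeZero q] (hqN : q ∣ N)
    (f : CuspForm (CongruenceSubgroup.Gamma0 N) ((m : ℤ) + 2)) :
    periodPoly m (CuspForm.heckeULin ((m : ℤ) + 2) hqN f) =
      heckeUOp N m q hqN (periodPoly m f) := by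
  have hq : q ≠ 0 := NeZero.ne q
  have hqC : (q : ℂ) ≠ 0 := by exact_mod_cast hq
  funext γ
  apply poly_eq_of_eval_eq_on_upperHalfPlane
  intro z
  rw [← (periodPoly_spec (CuspForm.heckeULin ((m : ℤ) + 2) hqN f) γ).2 z, eichler_heckeU]
  set F := eichler m f with hFdef
  -- key identity at the function level
  have key : (((q : ℂ) ^ (m + 1)) • ModularForm.heckeU (-(m : ℤ)) q F) ∣[-(m : ℤ)] (γ : SL(2, ℤ))
      - ((q : ℂ) ^ (m + 1)) • ModularForm.heckeU (-(m : ℤ)) q F
      = ((q : ℂ) ^ (m + 1)) • ∑ x : ZMod q,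
          (fun z : ℍ => (periodPoly m f (gamU hqN γ x)).eval (z : ℂ)) ∣[-(m : ℤ)]
            ModularForm.heckeMatrix q (affPerm hqN γ x).val := by
    rw [ModularForm.SL_smul_slash, ← smul_sub]
    congr 1
    rw [P2MW.S_ModularForm_heckeT_slash_eq_self_of_mem_Gamma0.ModularForm.HeckeSlashInvariance.heckeU_eq_sum_zmod,
      SlashAction.sum_slash]
    have hx : ∀ x : ZMod q,
        (F ∣[-(m : ℤ)] ModularForm.heckeMatrix q x.val) ∣[-(m : ℤ)] (γ : SL(2, ℤ))
        = F ∣[-(m : ℤ)] ModularForm.heckeMatrix q (affPerm hqN γ x).val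
          + (fun z : ℍ => (periodPoly m f (gamU hqN γ x)).eval (z : ℂ)) ∣[-(m : ℤ)]
            ModularForm.heckeMatrix q (affPerm hqN γ x).val := by
      intro x
      change (F ∣[-(m : ℤ)] ModularForm.heckeMatrix q x.val) ∣[-(m : ℤ)]
        (mapGL ℝ (γ : SL(2, ℤ))) = _
      rw [← SlashAction.slash_mul, gamU_spec, SlashAction.slash_mul, ← SlashAction.add_slash]
      congr 1
      funext w
      have := (periodPoly_spec f (gamU hqN γ x)).2 w
      simp only [Pi.sub_apply] at this
      simp only [Pi.add_apply]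
      rw [← this]
      change (F ∣[-(m : ℤ)] ((gamU hqN γ x : SL(2, ℤ)))) w = _
      ring
    simp_rw [hx]
    rw [Finset.sum_add_distrib,
      Equiv.sum_comp (affPerm hqN γ) (fun x => F ∣[-(m : ℤ)] ModularForm.heckeMatrix q x.val)]
    abel
  rw [key]
  simp only [Pi.smul_apply, Finset.sum_apply, heckeUOp, eval_finsetSum, smul_eq_mul,
    Finset.mul_sum]
  refine Finset.sum_congr rfl fun x _ => ?_
  rw [ModularForm.slash_heckeMatrix_apply _ hq, ModularForm.coe_heckeMatrix_smul hq,
    eval_polyAct _ _ _ _ (periodPoly_spec f _).1]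
  · push_cast
    rw [zero_mul, zero_add, one_mul, pow_succ]
    field_simp
  · push_cast
    rw [zero_mul, zero_add]
    exact hqC

end Fermat.Agent.S22
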