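import Mathlib

set_option autoImplicit false

namespace Fermat.Agent.S22

theorem finite_adjoin_of_lattice
    {V W : Type*} [AddCommGroup V] [Module ℂ V] [AddCommGroup W] [IsAddTorsionFree W]
    (π : V →+ W) (hπ : Function.Injective π)
    (Lam : Set (W →+ W))
    (hLam : ∀ w : W, (∀ l ∈ Lam, l w = 0) → w = 0)
    (I Q : AddSubgroup W)
    (hZ : (Q ⊓ I).FG)
    (hQI : ∀ w ∈ Q, ∃ d : ℕ, d ≠ 0 ∧ d • w ∈ I)
    (hπQ : ∀ f : V, ∀ l ∈ Lam, l (π f) ∈ Q)
    (P : Set (AddMonoid.End W × Module.End ℂ V))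
    (hP1 : ∀ x ∈ P, ∀ f, x.1 (π f) = π (x.2 f))
    (hP2 : ∀ x ∈ P, ∀ l ∈ Lam, ∀ w, x.1 (l w) = l (x.1 w))
    (hP3 : ∀ x ∈ P, ∀ w ∈ I, x.1 w ∈ I) :
    Module.Finite ℤ (Algebra.adjoin ℤ (Prod.snd '' P)) := by
  classical
  set B : Subalgebra ℤ (AddMonoid.End W × Module.End ℂ V) := Algebra.adjoin ℤ P with hB
  -- the three properties propagate to the whole of `B`
  have key : ∀ x ∈ B, (∀ f, x.1 (π f) = π (x.2 f)) ∧
      (∀ l ∈ Lam, ∀ w, x.1 (l w) = l (x.1 w)) ∧ (∀ w ∈ I, x.1 w ∈ I) := by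
    intro x hx
    induction hx using Algebra.adjoin_induction with
    | mem x hx => exact ⟨hP1 x hx, hP2 x hx, hP3 x hx⟩
    | algebraMap n =>
      refine ⟨fun f => ?_, fun l _ w => ?_, fun w hw => ?_⟩
      · simp
      · simp
      · simpa [Prod.algebraMap_apply] using I.zsmul_mem hw n
    | add x y _ _ hx hy =>
      refine ⟨fun f => ?_, fun l hl w => ?_, fun w hw => ?_⟩
      · change x.1 (π f) + y.1 (π f) = π (x.2 f + y.2 f)
        rw [hx.1 f, hy.1 f, map_add]
      · change x.1 (l w) + y.1 (l w) = l (x.1 w + y.1 w)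
        rw [hx.2.1 l hl w, hy.2.1 l hl w, map_add]
      · exact I.add_mem (hx.2.2 w hw) (hy.2.2 w hw)
    | mul x y _ _ hx hy =>
      refine ⟨fun f => ?_, fun l hl w => ?_, fun w hw => ?_⟩
      · change x.1 (y.1 (π f)) = π (x.2 (y.2 f))
        rw [hy.1 f, hx.1]
      · change x.1 (y.1 (l w)) = l (x.1 (y.1 w))
        rw [hy.2.1 l hl w, hx.2.1 l hl]
      · exact hx.2.2 _ (hy.2.2 w hw)
  -- Noetherianity of the lattice
  have hfin : Module.Finite ℤ ↥(Q ⊓ I) := by
    rw [Module.Finite.iff_addGroup_fg]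
    exact (AddGroup.fg_iff_addSubgroup_fg _).mpr hZ
  have hnoeth : IsNoetherian ℤ ↥(Q ⊓ I) := isNoetherian_of_isNoetherianRing_of_finite ℤ _
  -- the stable sublattice
  let L : Submodule ℤ ↥(Q ⊓ I) :=
    { carrier := {w | ∀ x ∈ B, x.1 (w : W) ∈ Q ⊓ I}
      add_mem' := by
        intro a b ha hb x hx
        have := (Q ⊓ I).add_mem (ha x hx) (hb x hx)
        simpa using this
      zero_mem' := by
        intro x hx
        simp
      smul_mem' := by
        intro c a ha x hx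
        have := (Q ⊓ I).zsmul_mem (ha x hx) c
        simpa using this }
  have hLmem : ∀ w : ↥(Q ⊓ I), w ∈ L ↔ ∀ x ∈ B, x.1 (w : W) ∈ Q ⊓ I := fun w => Iff.rfl
  obtain ⟨s, hs⟩ := (IsNoetherian.noetherian L)
  have hsL : ∀ w ∈ s, w ∈ L := fun w hw => hs ▸ Submodule.subset_span hw
  -- evaluation on the generators of `L`
  let Φ : ↥B →ₗ[ℤ] (↥s → ↥(Q ⊓ I)) :=
    { toFun := fun x w => ⟨x.1.1 ((w : ↥(Q ⊓ I)) : W), (hLmem _).1 (hsL w.1 w.2) x.1 x.2⟩
      map_add' := by
        intro x y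
        funext w
        rfl
      map_smul' := by
        intro c x
        funext w
        apply Subtype.ext
        simp }
  -- the projection to the second factor
  have hmap : B.map (AlgHom.snd ℤ (AddMonoid.End W) (Module.End ℂ V)) =
      Algebra.adjoin ℤ (Prod.snd '' P) := by
    rw [hB, AlgHom.map_adjoin]
    rfl
  let g : ↥B →ₗ[ℤ] ↥(Algebra.adjoin ℤ (Prod.snd '' P)) :=
    { toFun := fun x => ⟨x.1.2, hmap ▸ ⟨x.1, x.2, rfl⟩⟩
      map_add' := by
        intro x y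
        rfl
      map_smul' := by
        intro c x
        rfl }
  have hgsurj : Function.Surjective g := by
    rintro ⟨y, hy⟩
    rw [← hmap] at hy
    obtain ⟨x, hx, rfl⟩ := hy
    exact ⟨⟨x, hx⟩, rfl⟩
  have hker : LinearMap.ker Φ ≤ LinearMap.ker g := by
    intro x hx
    rw [LinearMap.mem_ker] at hx ⊢
    -- `x.1.1` kills every generator, hence all of `L`
    have hgen : ∀ w ∈ s, x.1.1 ((w : ↥(Q ⊓ I)) : W) = 0 := by
      intro w hw
      have := congrFun hx ⟨w, hw⟩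
      exact congrArg Subtype.val this
    have hL0 : ∀ w ∈ L, x.1.1 ((w : ↥(Q ⊓ I)) : W) = 0 := by
      intro w hw
      rw [← hs] at hw
      induction hw using Submodule.span_induction with
      | mem w hw => exact hgen w hw
      | zero => simp
      | add a b _ _ ha hb => simp [ha, hb]
      | smul c a _ ha => simp [ha]
    apply Subtype.ext
    change x.1.2 = 0
    refine LinearMap.ext fun f => ?_
    apply hπ
    rw [LinearMap.zero_apply, map_zero, ← (key x.1 x.2).1 f]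
    apply hLam
    intro l hl
    rw [← (key x.1 x.2).2.1 l hl]
    obtain ⟨d, hd0, hdI⟩ := hQI _ (hπQ f l hl)
    have hdQ : d • l (π f) ∈ Q := Q.nsmul_mem (hπQ f l hl) d
    have hdL : (⟨d • l (π f), ⟨hdQ, hdI⟩⟩ : ↥(Q ⊓ I)) ∈ L := by
      rw [hLmem]
      intro y hy
      refine ⟨?_, (key y hy).2.2 _ hdI⟩
      change y.1 (d • l (π f)) ∈ Q
      rw [map_nsmul, (key y hy).2.1 l hl, (key y hy).1 f]
      exact Q.nsmul_mem (hπQ _ l hl) d
    have h0 := hL0 _ hdL
    change x.1.1 (d • l (π f)) = 0 at h0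
    rw [map_nsmul] at h0
    have := IsAddTorsionFree.nsmul_right_injective hd0 (h0.trans (nsmul_zero d).symm)
    exact this
  have hnoeth' : IsNoetherian ℤ (↥s → ↥(Q ⊓ I)) := inferInstance
  have hrange : Module.Finite ℤ (LinearMap.range Φ) :=
    Module.Finite.iff_fg.mpr (IsNoetherian.noetherian _)
  have hquot : Module.Finite ℤ (↥B ⧸ LinearMap.ker Φ) :=
    Module.Finite.equiv (LinearMap.quotKerEquivRange Φ).symm
  refine Module.Finite.of_surjective ((LinearMap.ker Φ).liftQ g hker) ?_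
  intro y
  obtain ⟨x, rfl⟩ := hgsurj y
  exact ⟨Submodule.Quotient.mk x, rfl⟩

end Fermat.Agent.S22
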