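import Mathlib
import Fermat.Prelude.Def_CuspForm_HeckeAlgebra
import Fermat.Prelude.Thm_ModularForm_sturm_bound_Gamma0
import Fermat.Prelude.Thm_CongruenceSubgroup_one_mem_strictPeriods_Gamma0

set_option autoImplicit false

open UpperHalfPlane hiding I
open Complex Filter Function
open scoped Manifold MatrixGroups ModularForm Topology Derivative

namespace Fermat.Agent.S22

theorem LowWeight.neg_one_mem_Gamma0_GL (N : ℕ) :
    (-1 : GL (Fin 2) ℝ) ∈ ((CongruenceSubgroup.Gamma0 N : Subgroup SL(2, ℤ)) :
      Subgroup (GL (Fin 2) ℝ)) := by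
  refine ⟨-1, ?_, ?_⟩
  · rw [SetLike.mem_coe, CongruenceSubgroup.Gamma0_mem]
    simp
  · ext i j
    simp

theorem cuspForm_eq_zero_of_weight_le_one (N : ℕ) [NeZero N] {k : ℤ} (hk : k ≤ 1)
    (f : CuspForm (CongruenceSubgroup.Gamma0 N) k) : f = 0 := by
  let F : ModularForm (CongruenceSubgroup.Gamma0 N) k :=
    { toSlashInvariantForm := f.toSlashInvariantForm
      holo' := f.holo'
      bdd_at_cusps' := fun hc γ hγ => (f.zero_at_cusps' hc γ hγ).isBoundedAtImInfty }
  have hF : F = 0 := by
    rcases lt_or_eq_of_le hk with hk0 | hk1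
    · apply ModularForm.sturm_bound_Gamma0 N F
      intro n hn
      have hn0 : n = 0 := by
        have h1 : k * ((CongruenceSubgroup.Gamma0 N).index : ℤ) ≤ 0 :=
          mul_nonpos_of_nonpos_of_nonneg (by omega) (by positivity)
        have h2 : (k * ((CongruenceSubgroup.Gamma0 N).index : ℤ)).toNat = 0 := by
          omega
        rw [h2] at hn
        omega
      subst hn0
      exact CuspFormClass.qExpansion_coeff_zero (f := f) (h := 1) one_pos
        (CongruenceSubgroup.one_mem_strictPeriods_Gamma0 N)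
    · subst hk1
      exact ModularForm.eq_zero_of_neg_one_mem (LowWeight.neg_one_mem_Gamma0_GL N) (by decide) F
  ext z
  have h2 : F z = (0 : ModularForm (CongruenceSubgroup.Gamma0 N) k) z := by rw [hF]
  exact h2

theorem finite_heckeAlgebra_of_weight_le_one (N : ℕ) [NeZero N] {k : ℤ} (hk : k ≤ 1) (S : Set ℕ) :
    Module.Finite ℤ (CuspForm.heckeAlgebra N k S) := by
  have hsub : Subsingleton (CuspForm (CongruenceSubgroup.Gamma0 N) k) :=
    ⟨fun f g => by
      rw [cuspForm_eq_zero_of_weight_le_one N hk f, cuspForm_eq_zero_of_weight_le_one N hk g]⟩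
  have hsub' : Subsingleton (Module.End ℂ (CuspForm (CongruenceSubgroup.Gamma0 N) k)) :=
    ⟨fun a b => LinearMap.ext fun f => Subsingleton.elim _ _⟩
  have hsub'' : Subsingleton (CuspForm.heckeAlgebra N k S) :=
    ⟨fun a b => Subtype.ext (Subsingleton.elim _ _)⟩
  infer_instance

end Fermat.Agent.S22
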