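import Mathlib
import Fermat.Prelude.Def_CuspForm_HeckeAlgebra
import Fermat.Prelude.Thm_ModularForm_sturm_bound_Gamma0
import Fermat.Prelude.Thm_CongruenceSubgroup_one_mem_strictPeriods_Gamma0

set_option autoImplicit false

open UpperHalfPlane hiding I
open Complex Filter Function
open scoped Manifold MatrixGroups ModularForm Topology Derivative

namespace Fermat.Agent.S22.Inject

/-- Conjugates of powers of `T^N` lie in `Γ₀(N)`. -/
theorem conj_T_zpow_mem_Gamma0 (N : ℕ) (γ : SL(2, ℤ)) (m : ℤ) :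
    γ * ModularGroup.T ^ (m * N) * γ⁻¹ ∈ CongruenceSubgroup.Gamma0 N := by
  rw [CongruenceSubgroup.Gamma0_mem]
  have key : (γ * ModularGroup.T ^ (m * N) * γ⁻¹) 1 0 = - (γ 1 0 * γ 1 0 * m) * N := by
    rw [Matrix.SpecialLinearGroup.coe_mul, Matrix.SpecialLinearGroup.coe_mul,
      Matrix.SpecialLinearGroup.coe_inv, ModularGroup.coe_T_zpow,
      Matrix.mul_apply, Fin.sum_univ_two, Matrix.adjugate_fin_two]
    simp [Matrix.mul_apply, Fin.sum_univ_two]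
    ring
  rw [key]
  push_cast
  simp

theorem T_zpow_slash (w : ℤ) (F : ℍ → ℂ) (n : ℤ) (z : ℍ) :
    (F ∣[w] (ModularGroup.T ^ n)) z = F ((n : ℝ) +ᵥ z) := by
  rw [ModularForm.SL_slash_apply, UpperHalfPlane.modular_T_zpow_smul]
  have : denom (Matrix.SpecialLinearGroup.toGL ((Matrix.SpecialLinearGroup.map (Int.castRingHom ℝ))
      (ModularGroup.T ^ n))) (z : ℂ) = 1 := by
    have h := ModularGroup.denom_apply (ModularGroup.T ^ n) z
    rw [ModularGroup.coe_T_zpow] at h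
    simpa using h
  rw [this]
  simp

theorem slash_conj_vadd (N : ℕ) (w : ℤ) (F : ℍ → ℂ)
    (hinv : ∀ γ ∈ CongruenceSubgroup.Gamma0 N, F ∣[w] γ = F) (γ : SL(2, ℤ)) (m : ℤ) (z : ℍ) :
    (F ∣[w] γ) (((m * N : ℤ) : ℝ) +ᵥ z) = (F ∣[w] γ) z := by
  rw [← T_zpow_slash w (F ∣[w] γ) (m * N) z, ← SlashAction.slash_mul]
  have h := hinv _ (conj_T_zpow_mem_Gamma0 N γ m)
  have h2 : γ * ModularGroup.T ^ (m * N) = (γ * ModularGroup.T ^ (m * N) * γ⁻¹) * γ := by group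
  rw [h2, SlashAction.slash_mul, h]

theorem periodic_of_vadd {g : ℍ → ℂ} {h : ℝ} (hg : ∀ z : ℍ, g (h +ᵥ z) = g z) :
    Periodic (g ∘ ofComplex) (h : ℂ) := by
  intro w
  by_cases hw : 0 < im w
  · have hw' : 0 < im (w + h) := by simpa using hw
    simp only [comp_apply, ofComplex_apply_of_im_pos hw', ofComplex_apply_of_im_pos hw]
    rw [← hg ⟨w, hw⟩]
    congr 1
    ext
    simp [add_comm]
  · have hw0 : w.im ≤ 0 := not_lt.mp hw
    have hw' : (w + h).im ≤ 0 := by simpa using hw0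
    simp only [comp_apply]
    rw [ofComplex_apply_eq_of_im_nonpos hw' hw0]

/-- A periodic function bounded on a vertical half-strip is bounded at `i∞`. -/
theorem isBoundedAtImInfty_of_strip {g : ℍ → ℂ} {h : ℝ} (hh : 0 < h)
    (hper : ∀ (m : ℤ) (z : ℍ), g (((m : ℝ) * h) +ᵥ z) = g z) (M Y : ℝ)
    (hb : ∀ z : ℍ, 0 ≤ z.re → z.re ≤ h → Y ≤ z.im → ‖g z‖ ≤ M) : IsBoundedAtImInfty g := by
  rw [isBoundedAtImInfty_iff]
  refine ⟨M, Y, fun z hz => ?_⟩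
  set m : ℤ := -⌊z.re / h⌋ with hm
  rw [← hper m z]
  have hre : (((m : ℝ) * h) +ᵥ z).re = z.re - ⌊z.re / h⌋ * h := by
    rw [vadd_re, hm]; push_cast; ring
  have him : (((m : ℝ) * h) +ᵥ z).im = z.im := vadd_im _ _
  apply hb
  · rw [hre]
    have := Int.floor_le (z.re / h)
    have h2 : (⌊z.re / h⌋ : ℝ) * h ≤ z.re := by
      calc (⌊z.re / h⌋ : ℝ) * h ≤ z.re / h * h := by gcongr
        _ = z.re := by field_simp
    linarith
  · rw [hre]
    have := Int.lt_floor_add_one (z.re / h)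
    have h2 : z.re < ((⌊z.re / h⌋ : ℝ) + 1) * h := by
      calc z.re = z.re / h * h := by field_simp
        _ < ((⌊z.re / h⌋ : ℝ) + 1) * h := by gcongr
    linarith
  · rw [him]; exact hz

theorem norm_denom_le_strip (γ : SL(2, ℤ)) (h : ℝ) (z : ℍ) (h0 : 0 ≤ z.re) (h1 : z.re ≤ h)
    (h2 : 1 ≤ z.im) :
    ‖denom (Matrix.SpecialLinearGroup.toGL ((Matrix.SpecialLinearGroup.map (Int.castRingHom ℝ)) γ))
      (z : ℂ)‖ ≤ (|((γ 1 0 : ℤ) : ℝ)| * (h + 1) + |((γ 1 1 : ℤ) : ℝ)|) * z.im := by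
  have hd := ModularGroup.denom_apply γ z
  rw [hd]
  have hz : ‖(z : ℂ)‖ ≤ z.re + z.im := by
    calc ‖(z : ℂ)‖ ≤ |(z : ℂ).re| + |(z : ℂ).im| := Complex.norm_le_abs_re_add_abs_im _
      _ = z.re + z.im := by
        rw [UpperHalfPlane.coe_re, UpperHalfPlane.coe_im, abs_of_nonneg h0, abs_of_pos z.im_pos]
  have hc : 0 ≤ |((γ 1 0 : ℤ) : ℝ)| := abs_nonneg _
  have hdd : 0 ≤ |((γ 1 1 : ℤ) : ℝ)| := abs_nonneg _
  calc ‖((γ 1 0 : ℤ) : ℂ) * (z : ℂ) + ((γ 1 1 : ℤ) : ℂ)‖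
      ≤ ‖((γ 1 0 : ℤ) : ℂ) * (z : ℂ)‖ + ‖((γ 1 1 : ℤ) : ℂ)‖ := norm_add_le _ _
    _ = |((γ 1 0 : ℤ) : ℝ)| * ‖(z : ℂ)‖ + |((γ 1 1 : ℤ) : ℝ)| := by
        rw [norm_mul]
        congr 1
        · congr 1
          rw [← Complex.ofReal_intCast, Complex.norm_real, Real.norm_eq_abs]
        · rw [← Complex.ofReal_intCast, Complex.norm_real, Real.norm_eq_abs]
    _ ≤ |((γ 1 0 : ℤ) : ℝ)| * (h + z.im) + |((γ 1 1 : ℤ) : ℝ)| * z.im := by
        have : ‖(z : ℂ)‖ ≤ h + z.im := by linarith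
        have h3 : |((γ 1 0 : ℤ) : ℝ)| * ‖(z : ℂ)‖ ≤ |((γ 1 0 : ℤ) : ℝ)| * (h + z.im) :=
          mul_le_mul_of_nonneg_left this hc
        have h4 : |((γ 1 1 : ℤ) : ℝ)| ≤ |((γ 1 1 : ℤ) : ℝ)| * z.im := by nlinarith
        linarith
    _ ≤ (|((γ 1 0 : ℤ) : ℝ)| * (h + 1) + |((γ 1 1 : ℤ) : ℝ)|) * z.im := by
        have hh : 0 ≤ h := le_trans h0 h1
        nlinarith [mul_nonneg hc hh, mul_nonneg (mul_nonneg hc hh) (sub_nonneg.mpr h2)]

theorem slash_strip_bound (E : ℍ → ℂ) (C : ℝ) (A : ℕ)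
    (hE : ∀ z : ℍ, ‖E z‖ ≤ C * max 1 (z.im ^ (-(A : ℤ)))) (m : ℕ) (γ : SL(2, ℤ)) (h : ℝ)
    (hh : 0 ≤ h) :
    ∃ C' : ℝ, 0 ≤ C' ∧ ∀ z : ℍ, 0 ≤ z.re → z.re ≤ h → 1 ≤ z.im →
      ‖(E ∣[-(m : ℤ)] γ) z‖ ≤ C' * z.im ^ (m + A) := by
  set K : ℝ := |((γ 1 0 : ℤ) : ℝ)| * (h + 1) + |((γ 1 1 : ℤ) : ℝ)| with hK
  have hK0 : 0 ≤ K := by
    have := abs_nonneg ((γ 1 0 : ℤ) : ℝ)
    have := abs_nonneg ((γ 1 1 : ℤ) : ℝ)
    positivity
  refine ⟨|C| * (1 + K ^ (2 * A)) * K ^ m, by positivity, fun z h0 h1 h2 => ?_⟩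
  have hz := norm_denom_le_strip γ h z h0 h1 h2
  rw [← hK] at hz
  set d : ℂ := denom (Matrix.SpecialLinearGroup.toGL
    ((Matrix.SpecialLinearGroup.map (Int.castRingHom ℝ)) γ)) (z : ℂ) with hd
  have hd0 : d ≠ 0 := denom_ne_zero _ z
  have hdpos : 0 < ‖d‖ := norm_pos_iff.mpr hd0
  have hy : 0 < z.im := z.im_pos
  rw [ModularForm.SL_slash_apply, neg_neg, zpow_natCast, norm_mul, norm_pow, ← hd]
  have him : (γ • z).im = z.im / normSq d := ModularGroup.im_smul_eq_div_normSq γ z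
  have hE1 := hE (γ • z)
  have e1 : (γ • z).im ^ (-(A : ℤ)) = (‖d‖ ^ 2 / z.im) ^ A := by
    rw [him, zpow_neg, zpow_natCast, ← inv_pow, inv_div, Complex.normSq_eq_norm_sq]
  have e2 : ‖d‖ ^ 2 / z.im ≤ K ^ 2 * z.im := by
    rw [div_le_iff₀ hy]
    have : ‖d‖ ^ 2 ≤ (K * z.im) ^ 2 := by gcongr
    nlinarith
  have e3 : (‖d‖ ^ 2 / z.im) ^ A ≤ K ^ (2 * A) * z.im ^ A := by
    calc (‖d‖ ^ 2 / z.im) ^ A ≤ (K ^ 2 * z.im) ^ A := by gcongr
      _ = K ^ (2 * A) * z.im ^ A := by rw [mul_pow, ← pow_mul]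
  have hyA : 1 ≤ z.im ^ A := one_le_pow₀ h2
  have e4 : max 1 ((γ • z).im ^ (-(A : ℤ))) ≤ (1 + K ^ (2 * A)) * z.im ^ A := by
    rw [e1]
    apply max_le
    · have : 0 ≤ K ^ (2 * A) * z.im ^ A := by positivity
      nlinarith
    · have : 0 ≤ z.im ^ A := by positivity
      nlinarith
  have e5 : ‖E (γ • z)‖ ≤ |C| * ((1 + K ^ (2 * A)) * z.im ^ A) := by
    calc ‖E (γ • z)‖ ≤ C * max 1 ((γ • z).im ^ (-(A : ℤ))) := hE1
      _ ≤ |C| * max 1 ((γ • z).im ^ (-(A : ℤ))) := by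
          gcongr
          exact le_abs_self C
      _ ≤ |C| * ((1 + K ^ (2 * A)) * z.im ^ A) := by gcongr
  have e6 : ‖d‖ ^ m ≤ K ^ m * z.im ^ m := by
    calc ‖d‖ ^ m ≤ (K * z.im) ^ m := by gcongr
      _ = K ^ m * z.im ^ m := mul_pow _ _ _
  calc ‖E (γ • z)‖ * ‖d‖ ^ m ≤ (|C| * ((1 + K ^ (2 * A)) * z.im ^ A)) * (K ^ m * z.im ^ m) := by
        gcongr
    _ = |C| * (1 + K ^ (2 * A)) * K ^ m * z.im ^ (m + A) := by ring

theorem exists_pow_mul_exp_bound (B : ℕ) {c : ℝ} (hc : 0 < c) :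
    ∃ Y : ℝ, ∀ y : ℝ, Y ≤ y → y ^ B * Real.exp (-c * y) ≤ 1 := by
  have h := tendsto_rpow_mul_exp_neg_mul_atTop_nhds_zero (B : ℝ) c hc
  have h2 := h.eventually (ge_mem_nhds (zero_lt_one : (0 : ℝ) < 1))
  rw [Filter.eventually_atTop] at h2
  obtain ⟨Y, hY⟩ := h2
  refine ⟨Y, fun y hy => ?_⟩
  have := hY y hy
  simpa [Real.rpow_natCast] using this

theorem pow_mul_slash (E f : ℍ → ℂ) (a : ℕ) (k : ℤ) (γ : SL(2, ℤ)) :
    (E ^ a * f) ∣[(a : ℤ) * (2 - k) + k] γ = (E ∣[2 - k] γ) ^ a * (f ∣[k] γ) := by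
  ext z
  simp only [ModularForm.SL_slash_apply, Pi.mul_apply, Pi.pow_apply]
  have hd : denom (Matrix.SpecialLinearGroup.toGL
    ((Matrix.SpecialLinearGroup.map (Int.castRingHom ℝ)) γ)) (z : ℂ) ≠ 0 := denom_ne_zero _ z
  rw [show -((a : ℤ) * (2 - k) + k) = (-(2 - k)) * (a : ℤ) + (-k) by ring, zpow_add₀ hd, zpow_mul,
    zpow_natCast]
  ring

theorem cuspForm_slash_Gamma0 (N : ℕ) {k : ℤ}
    (f : CuspForm (CongruenceSubgroup.Gamma0 N) k) (γ : SL(2, ℤ))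
    (hγ : γ ∈ CongruenceSubgroup.Gamma0 N) : ⇑f ∣[k] γ = ⇑f :=
  SlashInvariantFormClass.slash_action_eq f _ (Subgroup.mem_map_of_mem _ hγ)

theorem prod_slash_isBoundedAtImInfty (N : ℕ) [NeZero N] {k : ℤ} (hk : 2 ≤ k)
    (f : CuspForm (CongruenceSubgroup.Gamma0 N) k) (E : ℍ → ℂ)
    (hgrowth : ∃ (C : ℝ) (A : ℕ), ∀ z : ℍ, ‖E z‖ ≤ C * max 1 (z.im ^ (-(A : ℤ))))
    (hinv : ∀ γ ∈ CongruenceSubgroup.Gamma0 N, E ∣[2 - k] γ = E) (a : ℕ) (γ : SL(2, ℤ)) :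
    IsBoundedAtImInfty ((E ^ a * ⇑f) ∣[(a : ℤ) * (2 - k) + k] γ) := by
  rw [pow_mul_slash]
  obtain ⟨C, A, hE⟩ := hgrowth
  have hNpos : (0 : ℝ) < (N : ℝ) := by exact_mod_cast NeZero.pos N
  set m : ℕ := (k - 2).toNat with hm
  have hmk : -(m : ℤ) = 2 - k := by omega
  obtain ⟨C', hC'0, hC'⟩ := slash_strip_bound E C A hE m γ (N : ℝ) hNpos.le
  rw [hmk] at hC'
  -- periodicity
  have hper1 : ∀ (j : ℤ) (z : ℍ), (E ∣[2 - k] γ) (((j : ℝ) * (N : ℝ)) +ᵥ z) = (E ∣[2 - k] γ) z := by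
    intro j z
    have := slash_conj_vadd N (2 - k) E hinv γ j z
    simpa using this
  have hper2 : ∀ (j : ℤ) (z : ℍ), (⇑f ∣[k] γ) (((j : ℝ) * (N : ℝ)) +ᵥ z) = (⇑f ∣[k] γ) z := by
    intro j z
    have := slash_conj_vadd N k ⇑f (cuspForm_slash_Gamma0 N f) γ j z
    simpa using this
  -- decay of f
  have hz2 : IsZeroAtImInfty (⇑f ∣[k] γ) := CuspFormClass.zero_at_infty_slash f γ
  have hmd2 : MDiff (⇑f ∣[k] γ) := (CuspFormClass.holo f).slash k _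
  have hp2 : Periodic ((⇑f ∣[k] γ) ∘ ofComplex) ((N : ℝ) : ℂ) := by
    apply periodic_of_vadd
    intro z
    have := hper2 1 z
    simpa using this
  have hdecay := hz2.exp_decay_atImInfty hNpos hp2 hmd2 hz2.isBoundedAtImInfty
  rw [Asymptotics.isBigO_iff] at hdecay
  obtain ⟨c₂, hc₂⟩ := hdecay
  obtain ⟨Y₂, hY₂⟩ := (UpperHalfPlane.atImInfty_mem _).mp hc₂
  have hcpos : 0 < 2 * Real.pi / (N : ℝ) := by positivity
  obtain ⟨Y₃, hY₃⟩ := exists_pow_mul_exp_bound (a * (m + A)) hcpos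
  refine isBoundedAtImInfty_of_strip hNpos ?_ (C' ^ a * |c₂|) (max 1 (max Y₂ Y₃)) ?_
  · intro j z
    simp only [Pi.mul_apply, Pi.pow_apply]
    rw [hper1 j z, hper2 j z]
  · intro z h0 h1 hY
    have hy1 : 1 ≤ z.im := le_trans (le_max_left _ _) hY
    have hy2 : Y₂ ≤ z.im := le_trans (le_trans (le_max_left _ _) (le_max_right _ _)) hY
    have hy3 : Y₃ ≤ z.im := le_trans (le_trans (le_max_right _ _) (le_max_right _ _)) hY
    have b1 := hC' z h0 h1 hy1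
    have b2 : ‖(⇑f ∣[k] γ) z‖ ≤ c₂ * ‖Real.exp (-2 * Real.pi * z.im / N)‖ := hY₂ z hy2
    have b3 := hY₃ z.im hy3
    simp only [Pi.mul_apply, Pi.pow_apply]
    rw [norm_mul, norm_pow]
    have e1 : ‖Real.exp (-2 * Real.pi * z.im / N)‖ = Real.exp (-(2 * Real.pi / (N : ℝ)) * z.im) := by
      rw [Real.norm_eq_abs, abs_of_pos (Real.exp_pos _)]
      congr 1
      ring
    rw [e1] at b2
    have b2' : ‖(⇑f ∣[k] γ) z‖ ≤ |c₂| * Real.exp (-(2 * Real.pi / (N : ℝ)) * z.im) := by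
      refine le_trans b2 ?_
      gcongr
      exact le_abs_self _
    have hy0 : 0 < z.im := z.im_pos
    calc ‖(E ∣[2 - k] γ) z‖ ^ a * ‖(⇑f ∣[k] γ) z‖
        ≤ (C' * z.im ^ (m + A)) ^ a * (|c₂| * Real.exp (-(2 * Real.pi / (N : ℝ)) * z.im)) := by
          gcongr
      _ = C' ^ a * |c₂| * (z.im ^ (a * (m + A)) * Real.exp (-(2 * Real.pi / (N : ℝ)) * z.im)) := by
          rw [mul_pow, ← pow_mul, mul_comm (m + A) a]
          ring
      _ ≤ C' ^ a * |c₂| * 1 := by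
          gcongr
      _ = C' ^ a * |c₂| := mul_one _

theorem T_mem_Gamma0 (N : ℕ) : ModularGroup.T ∈ CongruenceSubgroup.Gamma0 N := by
  rw [CongruenceSubgroup.Gamma0_mem]
  simp [ModularGroup.coe_T]

theorem periodic_one_of_invariant (N : ℕ) (w : ℤ) (E : ℍ → ℂ)
    (hinv : ∀ γ ∈ CongruenceSubgroup.Gamma0 N, E ∣[w] γ = E) :
    Periodic (E ∘ ofComplex) ((1 : ℝ) : ℂ) := by
  apply periodic_of_vadd
  intro z
  have h := T_zpow_slash w E 1 z
  rw [zpow_one, hinv _ (T_mem_Gamma0 N)] at h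
  rw [h]
  simp

theorem pow_qExpansion_facts (E : ℍ → ℂ) (hE : MDiff E)
    (hper : Periodic (E ∘ ofComplex) ((1 : ℝ) : ℂ)) (hb : IsBoundedAtImInfty E) (j : ℕ) :
    Periodic ((E ^ j) ∘ ofComplex) ((1 : ℝ) : ℂ) ∧ MDiff (E ^ j) ∧ IsBoundedAtImInfty (E ^ j) ∧
      qExpansion 1 (E ^ j) = (qExpansion 1 E) ^ j := by
  induction j with
  | zero =>
    refine ⟨?_, ?_, ?_, ?_⟩
    · intro x; simp
    · simp only [pow_zero]; exact mdifferentiable_const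
    · simp only [pow_zero]
      exact Filter.const_boundedAtFilter _ _
    · simp only [pow_zero]; exact qExpansion_one 1
  | succ j ih =>
    obtain ⟨h1, h2, h3, h4⟩ := ih
    refine ⟨?_, ?_, ?_, ?_⟩
    · intro x
      have e1 := h1 x
      have e2 := hper x
      simp only [comp_apply, Pi.pow_apply, Pi.mul_apply, pow_succ] at e1 e2 ⊢
      rw [e1, e2]
    · rw [pow_succ]; exact h2.mul hE
    · rw [pow_succ]; exact h3.mul hb
    · rw [pow_succ, qExpansion_mul (analyticAt_cuspFunction_zero one_pos h1 h2 h3)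
        (analyticAt_cuspFunction_zero one_pos hper hE hb), h4, pow_succ]

theorem norm_D_eq (G : ℍ → ℂ) (z : ℍ) :
    ‖D G z‖ = (2 * Real.pi)⁻¹ * ‖deriv (G ∘ ofComplex) (z : ℂ)‖ := by
  simp only [Derivative.normalizedDerivOfComplex, norm_mul, norm_inv]
  congr 2
  rw [Complex.norm_I, mul_one, Complex.norm_real, Real.norm_eq_abs,
    abs_of_pos Real.pi_pos]
  simp

/-- Cauchy estimate: `D` preserves boundedness at `i∞`. -/
theorem isBoundedAtImInfty_D {G : ℍ → ℂ} (hG : MDiff G) (hb : IsBoundedAtImInfty G) :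
    IsBoundedAtImInfty (D G) := by
  rw [isBoundedAtImInfty_iff] at hb ⊢
  obtain ⟨M, Y, hM⟩ := hb
  refine ⟨(2 * Real.pi)⁻¹ * M, max Y 0 + 2, fun z hz => ?_⟩
  rw [norm_D_eq]
  have hdiff : DifferentiableOn ℂ (G ∘ ofComplex) {w : ℂ | 0 < w.im} :=
    UpperHalfPlane.mdifferentiable_iff.mp hG
  have him : ∀ w ∈ Metric.closedBall (z : ℂ) 1, max Y 0 + 1 ≤ w.im := by
    intro w hw
    rw [Metric.mem_closedBall, dist_eq_norm] at hw
    have h1 : |(w - (z : ℂ)).im| ≤ 1 := le_trans (Complex.abs_im_le_norm _) hw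
    rw [Complex.sub_im, UpperHalfPlane.coe_im] at h1
    have := (abs_le.mp h1).1
    linarith
  have hsub : Metric.closedBall (z : ℂ) 1 ⊆ {w : ℂ | 0 < w.im} := by
    intro w hw
    have := him w hw
    have h0 : (0 : ℝ) ≤ max Y 0 := le_max_right _ _
    simp only [Set.mem_ofPred_eq]
    linarith
  have hcl : DiffContOnCl ℂ (G ∘ ofComplex) (Metric.ball (z : ℂ) 1) :=
    hdiff.diffContOnCl_ball hsub
  have hbd : ∀ w ∈ Metric.sphere (z : ℂ) 1, ‖(G ∘ ofComplex) w‖ ≤ M := by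
    intro w hw
    have hw' : w ∈ Metric.closedBall (z : ℂ) 1 := Metric.sphere_subset_closedBall hw
    have hpos : 0 < w.im := hsub hw'
    simp only [comp_apply, ofComplex_apply_of_im_pos hpos]
    apply hM
    have := him w hw'
    have hY : Y ≤ max Y 0 := le_max_left _ _
    change Y ≤ w.im
    linarith
  have key := Complex.norm_deriv_le_of_forall_mem_sphere_norm_le one_pos hcl hbd
  rw [div_one] at key
  have hpi : 0 < (2 * Real.pi)⁻¹ := by positivity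
  exact mul_le_mul_of_nonneg_left key hpi.le

/-- Mean value step: polynomial growth of `D G` gives polynomial growth of `G`. -/
theorem growth_of_D {G : ℍ → ℂ} (hG : MDiff G) (hb : IsBoundedAtImInfty G)
    (hDG : ∃ (C : ℝ) (A : ℕ), ∀ z : ℍ, ‖D G z‖ ≤ C * max 1 (z.im ^ (-(A : ℤ)))) :
    ∃ (C : ℝ) (A : ℕ), ∀ z : ℍ, ‖G z‖ ≤ C * max 1 (z.im ^ (-(A : ℤ))) := by
  obtain ⟨C, A, hC⟩ := hDG
  rw [isBoundedAtImInfty_iff] at hb
  obtain ⟨M, Y, hM⟩ := hb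
  set Y₀ : ℝ := max Y 1 with hY₀
  have hY₀1 : 1 ≤ Y₀ := le_max_right _ _
  have hY₀Y : Y ≤ Y₀ := le_max_left _ _
  refine ⟨|M| + 2 * Real.pi * |C| * Y₀, A, fun z => ?_⟩
  have hy : 0 < z.im := z.im_pos
  have hmax1 : (1 : ℝ) ≤ max 1 (z.im ^ (-(A : ℤ))) := le_max_left _ _
  have hpi : 0 < 2 * Real.pi := by positivity
  have hC0 : 0 ≤ 2 * Real.pi * |C| * Y₀ := by positivity
  by_cases hzY : Y₀ ≤ z.im
  · have h1 : ‖G z‖ ≤ M := hM z (le_trans hY₀Y hzY)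
    have h2 : M ≤ |M| := le_abs_self M
    have h3 : |M| + 2 * Real.pi * |C| * Y₀ ≤
        (|M| + 2 * Real.pi * |C| * Y₀) * max 1 (z.im ^ (-(A : ℤ))) :=
      le_mul_of_one_le_right (by positivity) hmax1
    linarith
  · have hzY' : z.im < Y₀ := not_le.mp hzY
    set s : Set ℂ := {w : ℂ | z.im ≤ w.im} with hs
    have hsconv : Convex ℝ s := convex_halfSpace_im_ge _
    have hdiff : DifferentiableOn ℂ (G ∘ ofComplex) {w : ℂ | 0 < w.im} :=
      UpperHalfPlane.mdifferentiable_iff.mp hG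
    have hda : ∀ w ∈ s, DifferentiableAt ℂ (G ∘ ofComplex) w := by
      intro w hw
      have hw0 : 0 < w.im := lt_of_lt_of_le hy hw
      exact (hdiff w hw0).differentiableAt (isOpen_upperHalfPlaneSet.mem_nhds hw0)
    have hbound : ∀ w ∈ s, ‖deriv (G ∘ ofComplex) w‖ ≤
        2 * Real.pi * |C| * max 1 (z.im ^ (-(A : ℤ))) := by
      intro w hw
      have hw0 : 0 < w.im := lt_of_lt_of_le hy hw
      have h1 := hC ⟨w, hw0⟩
      rw [norm_D_eq] at h1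
      have h2 : (⟨w, hw0⟩ : ℍ).im = w.im := rfl
      rw [h2] at h1
      have h3 : w.im ^ (-(A : ℤ)) ≤ z.im ^ (-(A : ℤ)) := by
        rw [zpow_neg, zpow_neg, zpow_natCast, zpow_natCast]
        apply inv_anti₀ (by positivity)
        exact pow_le_pow_left₀ hy.le hw A
      have h4 : max 1 (w.im ^ (-(A : ℤ))) ≤ max 1 (z.im ^ (-(A : ℤ))) := max_le_max le_rfl h3
      have h5 : C * max 1 (w.im ^ (-(A : ℤ))) ≤ |C| * max 1 (z.im ^ (-(A : ℤ))) := by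
        calc C * max 1 (w.im ^ (-(A : ℤ))) ≤ |C| * max 1 (w.im ^ (-(A : ℤ))) := by
              gcongr
              exact le_abs_self C
          _ ≤ |C| * max 1 (z.im ^ (-(A : ℤ))) := by gcongr
      have h6 : ‖deriv (G ∘ ofComplex) w‖ ≤ 2 * Real.pi * (C * max 1 (w.im ^ (-(A : ℤ)))) := by
        have h7 : (2 * Real.pi)⁻¹ * ‖deriv (G ∘ ofComplex) w‖ ≤ C * max 1 (w.im ^ (-(A : ℤ))) := h1
        rw [inv_mul_le_iff₀ hpi] at h7
        exact h7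
      calc ‖deriv (G ∘ ofComplex) w‖ ≤ 2 * Real.pi * (C * max 1 (w.im ^ (-(A : ℤ)))) := h6
        _ ≤ 2 * Real.pi * (|C| * max 1 (z.im ^ (-(A : ℤ)))) := by gcongr
        _ = 2 * Real.pi * |C| * max 1 (z.im ^ (-(A : ℤ))) := by ring
    set z₀ : ℂ := (z : ℂ) + ((Y₀ - z.im : ℝ) : ℂ) * I with hz₀
    have hz₀im : z₀.im = Y₀ := by
      simp [hz₀]
    have hz₀s : z₀ ∈ s := by
      simp only [hs, Set.mem_ofPred_eq, hz₀im]
      exact hzY'.le
    have hzs : (z : ℂ) ∈ s := by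
      simp only [hs, Set.mem_ofPred_eq, UpperHalfPlane.coe_im, le_refl]
    have key := hsconv.norm_image_sub_le_of_norm_deriv_le hda hbound hz₀s hzs
    have hnorm : ‖(z : ℂ) - z₀‖ = Y₀ - z.im := by
      rw [hz₀]
      have : (z : ℂ) - ((z : ℂ) + ((Y₀ - z.im : ℝ) : ℂ) * I) = -(((Y₀ - z.im : ℝ) : ℂ) * I) := by
        ring
      rw [this, norm_neg, norm_mul, Complex.norm_I, mul_one, Complex.norm_real, Real.norm_eq_abs,
        abs_of_pos (sub_pos.mpr hzY')]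
    rw [hnorm] at key
    have hz₀pos : 0 < z₀.im := by rw [hz₀im]; linarith
    have hGz₀ : ‖(G ∘ ofComplex) z₀‖ ≤ M := by
      simp only [comp_apply, ofComplex_apply_of_im_pos hz₀pos]
      apply hM
      change Y ≤ z₀.im
      rw [hz₀im]
      exact hY₀Y
    have hGz : (G ∘ ofComplex) (z : ℂ) = G z := by
      simp [comp_apply]
    rw [hGz] at key
    have hmaxpos : 0 < max 1 (z.im ^ (-(A : ℤ))) := lt_of_lt_of_le one_pos hmax1
    have h8 : ‖G z‖ ≤ ‖(G ∘ ofComplex) z₀‖ + ‖G z - (G ∘ ofComplex) z₀‖ := by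
      have := norm_add_le ((G ∘ ofComplex) z₀) (G z - (G ∘ ofComplex) z₀)
      simpa using this
    have h9 : 2 * Real.pi * |C| * max 1 (z.im ^ (-(A : ℤ))) * (Y₀ - z.im) ≤
        2 * Real.pi * |C| * Y₀ * max 1 (z.im ^ (-(A : ℤ))) := by
      have : Y₀ - z.im ≤ Y₀ := by linarith
      have hcoef : 0 ≤ 2 * Real.pi * |C| * max 1 (z.im ^ (-(A : ℤ))) := by positivity
      nlinarith [mul_le_mul_of_nonneg_left this hcoef]
    have h10 : M ≤ |M| * max 1 (z.im ^ (-(A : ℤ))) := by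
      have : |M| ≤ |M| * max 1 (z.im ^ (-(A : ℤ))) := le_mul_of_one_le_right (abs_nonneg _) hmax1
      exact le_trans (le_abs_self M) this
    calc ‖G z‖ ≤ ‖(G ∘ ofComplex) z₀‖ + ‖G z - (G ∘ ofComplex) z₀‖ := h8
      _ ≤ M + 2 * Real.pi * |C| * max 1 (z.im ^ (-(A : ℤ))) * (Y₀ - z.im) := by linarith
      _ ≤ |M| * max 1 (z.im ^ (-(A : ℤ))) +
            2 * Real.pi * |C| * Y₀ * max 1 (z.im ^ (-(A : ℤ))) := by linarith
      _ = (|M| + 2 * Real.pi * |C| * Y₀) * max 1 (z.im ^ (-(A : ℤ))) := by ring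

theorem growth_of_iterate_D_aux (n : ℕ) : ∀ (G : ℍ → ℂ), MDiff G → IsBoundedAtImInfty G →
    (∃ (C : ℝ) (A : ℕ), ∀ z : ℍ, ‖D^[n] G z‖ ≤ C * max 1 (z.im ^ (-(A : ℤ)))) →
    ∃ (C : ℝ) (A : ℕ), ∀ z : ℍ, ‖G z‖ ≤ C * max 1 (z.im ^ (-(A : ℤ))) := by
  induction n with
  | zero => intro G _ _ h; simpa using h
  | succ n ih =>
    intro G hG hb h
    rw [Function.iterate_succ_apply] at h
    exact growth_of_D hG hb
      (ih (D G) (Derivative.normalizedDerivOfComplex_mdifferentiable hG) (isBoundedAtImInfty_D hG hb) h)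

theorem cuspForm_growth (N : ℕ) [NeZero N] {k : ℤ} (hk : 0 ≤ k)
    (f : CuspForm (CongruenceSubgroup.Gamma0 N) k) (c : ℂ) :
    ∃ (C : ℝ) (A : ℕ), ∀ z : ℍ, ‖(c • ⇑f) z‖ ≤ C * max 1 (z.im ^ (-(A : ℤ))) := by
  obtain ⟨C, hC⟩ := CuspFormClass.exists_bound f
  refine ⟨‖c‖ * |C|, k.toNat, fun z => ?_⟩
  have hy : 0 < z.im := z.im_pos
  have h1 := hC z
  have hk' : ((k.toNat : ℕ) : ℝ) = (k : ℝ) := by
    have : ((k.toNat : ℕ) : ℤ) = k := Int.toNat_of_nonneg hk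
    exact_mod_cast this
  have hkr : (0 : ℝ) ≤ (k : ℝ) := by exact_mod_cast hk
  have e1 : 1 / z.im ^ ((k : ℝ) / 2) ≤ max 1 (z.im ^ (-((k.toNat : ℕ) : ℤ))) := by
    rw [one_div, ← Real.rpow_neg hy.le]
    by_cases hy1 : 1 ≤ z.im
    · refine le_trans ?_ (le_max_left _ _)
      exact Real.rpow_le_one_of_one_le_of_nonpos hy1 (by linarith)
    · refine le_trans ?_ (le_max_right _ _)
      have hy1' : z.im ≤ 1 := (not_le.mp hy1).le
      have e2 : z.im ^ (-((k.toNat : ℕ) : ℤ)) = z.im ^ (-(k : ℝ)) := by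
        rw [← Real.rpow_intCast]
        congr 1
        push_cast
        rw [hk']
      rw [e2]
      exact Real.rpow_le_rpow_of_exponent_ge hy hy1' (by linarith)
  have hmax : 0 ≤ max 1 (z.im ^ (-((k.toNat : ℕ) : ℤ))) := le_trans zero_le_one (le_max_left _ _)
  have h2 : ‖f z‖ ≤ |C| * max 1 (z.im ^ (-((k.toNat : ℕ) : ℤ))) := by
    calc ‖f z‖ ≤ C / z.im ^ ((k : ℝ) / 2) := h1
      _ = C * (1 / z.im ^ ((k : ℝ) / 2)) := by ring
      _ ≤ |C| * (1 / z.im ^ ((k : ℝ) / 2)) := by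
          have : 0 ≤ 1 / z.im ^ ((k : ℝ) / 2) := by positivity
          exact mul_le_mul_of_nonneg_right (le_abs_self C) this
      _ ≤ |C| * max 1 (z.im ^ (-((k.toNat : ℕ) : ℤ))) := by gcongr
  simp only [Pi.smul_apply, smul_eq_mul, norm_mul]
  calc ‖c‖ * ‖f z‖ ≤ ‖c‖ * (|C| * max 1 (z.im ^ (-((k.toNat : ℕ) : ℤ)))) := by gcongr
    _ = ‖c‖ * |C| * max 1 (z.im ^ (-((k.toNat : ℕ) : ℤ))) := by ring

theorem iterate_D_zero (n : ℕ) : D^[n] (0 : ℍ → ℂ) = 0 := by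
  have h0 : D (0 : ℍ → ℂ) = 0 := Derivative.normalizedDerivOfComplex_const 0
  exact Function.iterate_fixed h0 n

end Fermat.Agent.S22.Inject

namespace Fermat.Agent.S22

open Fermat.Agent.S22.Inject

theorem eq_zero_of_invariant (N : ℕ) [NeZero N] {k : ℤ} (hk : 2 ≤ k)
    (f : CuspForm (CongruenceSubgroup.Gamma0 N) k) (hf : f ≠ 0) (E : ℍ → ℂ) (hE : MDiff E)
    (hzero : IsZeroAtImInfty E)
    (hgrowth : ∃ (C : ℝ) (A : ℕ), ∀ z : ℍ, ‖E z‖ ≤ C * max 1 (z.im ^ (-(A : ℤ))))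
    (hinv : ∀ γ ∈ CongruenceSubgroup.Gamma0 N, E ∣[2 - k] γ = E) : E = 0 := by
  set a : ℕ := (CongruenceSubgroup.Gamma0 N).index with ha
  have ha0 : a ≠ 0 := Subgroup.FiniteIndex.index_ne_zero
  set w : ℤ := (a : ℤ) * (2 - k) + k with hw
  let G : ModularForm (CongruenceSubgroup.Gamma0 N) w :=
    { toFun := E ^ a * ⇑f
      slash_action_eq' := by
        rintro γ ⟨γ', hγ', rfl⟩
        change (E ^ a * ⇑f) ∣[w] γ' = _
        rw [hw, pow_mul_slash, hinv γ' hγ', cuspForm_slash_Gamma0 N f γ' hγ']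
      holo' := (hE.pow a).mul (CuspFormClass.holo f)
      bdd_at_cusps' := by
        intro c hc
        have hc' := (Subgroup.IsArithmetic.isCusp_iff_isCusp_SL2Z _).mp hc
        rw [OnePoint.isBoundedAt_iff_forall_SL2Z hc']
        intro γ _
        exact prod_slash_isBoundedAtImInfty N hk f E hgrowth hinv a γ }
  have hGfun : (⇑G : ℍ → ℂ) = E ^ a * ⇑f := rfl
  have hperE : Periodic (E ∘ ofComplex) ((1 : ℝ) : ℂ) := periodic_one_of_invariant N (2 - k) E hinv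
  have hperf : Periodic (⇑f ∘ ofComplex) ((1 : ℝ) : ℂ) :=
    SlashInvariantFormClass.periodic_comp_ofComplex f
      (CongruenceSubgroup.one_mem_strictPeriods_Gamma0 N)
  have hbE : IsBoundedAtImInfty E := hzero.isBoundedAtImInfty
  have hzf : IsZeroAtImInfty ⇑f := CuspFormClass.zero_at_infty f
  have hmf : MDiff ⇑f := CuspFormClass.holo f
  obtain ⟨hp1, hp2, hp3, hp4⟩ := pow_qExpansion_facts E hE hperE hbE a
  have hanE := analyticAt_cuspFunction_zero one_pos hperE hE hbE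
  have hanf := analyticAt_cuspFunction_zero one_pos hperf hmf hzf.isBoundedAtImInfty
  have hanEa := analyticAt_cuspFunction_zero one_pos hp1 hp2 hp3
  have hq : qExpansion 1 (E ^ a * ⇑f) = (qExpansion 1 E) ^ a * qExpansion 1 ⇑f := by
    rw [qExpansion_mul hanEa hanf, hp4]
  have hE0 : PowerSeries.coeff 0 (qExpansion 1 E) = 0 := by
    rw [qExpansion_coeff_zero one_pos hanE hperE, hzero.valueAtInfty_eq_zero]
  have hf0 : PowerSeries.coeff 0 (qExpansion 1 ⇑f) = 0 := by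
    rw [qExpansion_coeff_zero one_pos hanf hperf, hzf.valueAtInfty_eq_zero]
  have hXE : (PowerSeries.X : PowerSeries ℂ) ∣ qExpansion 1 E := by
    rw [PowerSeries.X_dvd_iff]; simpa using hE0
  have hXf : (PowerSeries.X : PowerSeries ℂ) ∣ qExpansion 1 ⇑f := by
    rw [PowerSeries.X_dvd_iff]; simpa using hf0
  have hXG : (PowerSeries.X : PowerSeries ℂ) ^ (a + 1) ∣ qExpansion 1 (E ^ a * ⇑f) := by
    rw [hq, pow_succ]
    exact mul_dvd_mul (pow_dvd_pow_of_dvd hXE a) hXf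
  have hG0 : G = 0 := by
    apply ModularForm.sturm_bound_Gamma0 N G
    intro n hn
    rw [hGfun]
    apply (PowerSeries.X_pow_dvd_iff.mp hXG) n
    have h1 : (w * ((CongruenceSubgroup.Gamma0 N).index : ℤ)).toNat ≤ 2 * a := by
      rw [← ha, hw]
      have ha1 : (1 : ℤ) ≤ (a : ℤ) := by omega
      have h2 : (a : ℤ) * (2 - k) + k ≤ 2 := by nlinarith [mul_nonneg (sub_nonneg.mpr hk) (sub_nonneg.mpr ha1)]
      have h3 : ((a : ℤ) * (2 - k) + k) * (a : ℤ) ≤ 2 * a := by nlinarith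
      omega
    omega
  have hprod : E ^ a * ⇑f = 0 := by
    rw [← hGfun, hG0]; rfl
  have hq0 : (qExpansion 1 E) ^ a * qExpansion 1 ⇑f = 0 := by
    rw [← hq, hprod, qExpansion_zero]
  rcases mul_eq_zero.mp hq0 with h | h
  · have := pow_eq_zero_iff ha0 |>.mp h
    exact (qExpansion_eq_zero_iff one_pos hperE hE hbE).mp this
  · have h2 := (qExpansion_eq_zero_iff one_pos hperf hmf hzf.isBoundedAtImInfty).mp h
    exfalso
    apply hf
    ext z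
    exact congrFun h2 z

theorem growth_of_iterate_D (n : ℕ) (E F : ℍ → ℂ) (hE : MDiff E)
    (hper : Periodic (E ∘ ofComplex) 1) (hzero : IsZeroAtImInfty E) (hD : D^[n] E = F)
    (hF : ∃ (C : ℝ) (A : ℕ), ∀ z : ℍ, ‖F z‖ ≤ C * max 1 (z.im ^ (-(A : ℤ)))) :
    ∃ (C : ℝ) (A : ℕ), ∀ z : ℍ, ‖E z‖ ≤ C * max 1 (z.im ^ (-(A : ℤ))) := by
  have _ := hper
  subst hD
  exact growth_of_iterate_D_aux n E hE hzero.isBoundedAtImInfty hF

theorem eq_zero_of_invariant_primitive (N : ℕ) [NeZero N] {k : ℤ} (hk : 2 ≤ k)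
    (f : CuspForm (CongruenceSubgroup.Gamma0 N) k) (c : ℂ) (hc : c ≠ 0) (E : ℍ → ℂ) (hE : MDiff E)
    (hper : Periodic (E ∘ ofComplex) 1) (hzero : IsZeroAtImInfty E)
    (hD : D^[(k - 1).toNat] E = c • ⇑f)
    (hinv : ∀ γ ∈ CongruenceSubgroup.Gamma0 N, E ∣[2 - k] γ = E) : f = 0 := by
  by_contra hf
  have hgr := growth_of_iterate_D (k - 1).toNat E (c • ⇑f) hE hper hzero hD
    (cuspForm_growth N (by omega) f c)
  have hE0 := eq_zero_of_invariant N hk f hf E hE hzero hgr hinv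
  rw [hE0, iterate_D_zero] at hD
  apply hf
  ext z
  have := congrFun hD z
  simp only [Pi.zero_apply, Pi.smul_apply, smul_eq_mul] at this
  rcases mul_eq_zero.mp this.symm with h | h
  · exact absurd h hc
  · simpa using h

end Fermat.Agent.S22
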