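import Fermat.Agent.S22.Eichler
import Fermat.Agent.S22.Inject

set_option autoImplicit false

open UpperHalfPlane hiding I
open Complex Filter Function
open scoped Manifold MatrixGroups ModularForm Topology Derivative
open Polynomial Matrix.SpecialLinearGroup

namespace Fermat.Agent.S22

variable {N : ℕ} [NeZero N] {m : ℕ}

theorem periodPoly_eq_zero_imp (f : CuspForm (CongruenceSubgroup.Gamma0 N) ((m : ℤ) + 2))
    (h : periodPoly m f = 0) : f = 0 := by
  obtain ⟨hE, hz, hD⟩ := eichler_spec f
  have hper := eichler_periodic f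
  have hk : (2 : ℤ) ≤ (m : ℤ) + 2 := by omega
  have hn : (((m : ℤ) + 2) - 1).toNat = m + 1 := by omega
  have hw : (2 : ℤ) - ((m : ℤ) + 2) = -(m : ℤ) := by ring
  refine eq_zero_of_invariant_primitive N hk f 1 one_ne_zero (eichler m f) hE hper hz ?_ ?_
  · rw [hn, hD, one_smul]
  · intro γ hγ
    rw [hw]
    have hs := (periodPoly_spec f ⟨γ, hγ⟩).2
    ext z
    have := hs z
    rw [h] at this
    simp only [Pi.zero_apply, Polynomial.eval_zero, Pi.sub_apply] at this
    exact sub_eq_zero.mp this

end Fermat.Agent.S22
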