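import Fermat.Agent.S22.HeckeOps
import Fermat.Agent.S22.Eichler
import Fermat.Agent.S22.PeriodInj
import Fermat.Agent.S22.HeckeT
import Fermat.Agent.S22.HeckeU
import Fermat.Agent.S22.Lattice
import Fermat.Agent.S22.LowWeight

/-!
# S22: the Hecke algebra is a finite `ℤ`-module — final assembly

For `k = m + 2` the period map `periodPoly m` embeds `S_k(Γ₀(N))` into functions
`Γ₀(N) → ℂ[X]`, intertwining the Hecke operators with the abstract operators `heckeTOp`,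
`heckeUOp`, which preserve the integral cocycle lattice.  `finite_adjoin_of_lattice` then gives
the finiteness.
-/

set_option autoImplicit false

open UpperHalfPlane hiding I
open Complex Filter Function
open scoped Manifold MatrixGroups ModularForm Topology Derivative
open Polynomial Matrix.SpecialLinearGroup

namespace Fermat.Agent.S22

variable {N : ℕ} [NeZero N] {m : ℕ}

theorem IsCocycle.coeffMapW {r : Gam N → ℂ[X]} (h : IsCocycle N m r) (l : ℂ →+ ℂ) :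
    IsCocycle N m (coeffMapW N l r) :=
  ⟨fun γ => (natDegree_coeffMap_le l _).trans (h.natDegree_le γ),
    fun γ₁ γ₂ => by
      simp only [coeffMapW_apply, h.map_mul, coeffMap_add, coeffMap_polyActSL]⟩

/-- The period map as an additive map. -/
noncomputable def periodHom (N : ℕ) [NeZero N] (m : ℕ) :
    CuspForm (CongruenceSubgroup.Gamma0 N) ((m : ℤ) + 2) →+ (Gam N → ℂ[X]) :=
  AddMonoidHom.mk' (periodPoly m) periodPoly_add

theorem periodHom_apply (f : CuspForm (CongruenceSubgroup.Gamma0 N) ((m : ℤ) + 2)) :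
    periodHom N m f = periodPoly m f := rfl

theorem periodHom_injective : Function.Injective (periodHom N m) := by
  refine (injective_iff_map_eq_zero _).mpr fun f hf => ?_
  exact periodPoly_eq_zero_imp f hf

/-- Coefficientwise rational functionals. -/
def lamSet (N : ℕ) : Set ((Gam N → ℂ[X]) →+ (Gam N → ℂ[X])) :=
  {L | ∃ l : ℂ →+ ℂ, (∀ c, ∃ a : ℚ, l c = a) ∧ L = coeffMapW N l}

theorem lamSet_separates (w : Gam N → ℂ[X]) (h : ∀ L ∈ lamSet N, L w = 0) : w = 0 := by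
  funext γ
  ext n
  by_contra hne
  simp only [Pi.zero_apply, coeff_zero] at hne
  obtain ⟨φ, hφ⟩ : ∃ φ : Module.Dual ℚ ℂ, φ ((w γ).coeff n) ≠ 0 := by
    by_contra hcon
    push Not at hcon
    exact hne ((Module.forall_dual_apply_eq_zero_iff ℚ _).mp hcon)
  let l : ℂ →+ ℂ := (algebraMap ℚ ℂ).toAddMonoidHom.comp φ.toAddMonoidHom
  have hl : ∀ c, ∃ a : ℚ, l c = a := fun c => ⟨φ c, rfl⟩
  have h0 := h (coeffMapW N l) ⟨l, hl, rfl⟩
  have h1 := congrArg (fun p : ℂ[X] => p.coeff n) (congrFun h0 γ)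
  change (coeffMap l (w γ)).coeff n = 0 at h1
  rw [coeff_coeffMap] at h1
  have h2 : ((φ ((w γ).coeff n) : ℚ) : ℂ) = 0 := h1
  exact hφ (by exact_mod_cast h2)

/-- The pairs (operator on cocycle functions, Hecke operator on forms). -/
def pairSet (N : ℕ) [NeZero N] (m : ℕ) (S : Set ℕ) :
    Set (AddMonoid.End (Gam N → ℂ[X]) ×
      Module.End ℂ (CuspForm (CongruenceSubgroup.Gamma0 N) ((m : ℤ) + 2))) :=
  {x | ∃ (ℓ : ℕ) (hℓ : ℓ.Prime) (hℓN : ¬ ℓ ∣ N), ℓ ∉ S ∧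
      x = (@heckeTOpHom N m ℓ ⟨hℓ⟩ hℓN, CuspForm.heckeTLin ((m : ℤ) + 2) hℓ hℓN)} ∪
  {x | ∃ (q : ℕ) (hqN : q ∣ N) (hq : q.Prime), q ∉ S ∧
      x = (@heckeUOpHom N m q ⟨hq.ne_zero⟩ hqN, CuspForm.heckeULin ((m : ℤ) + 2) hqN)}

theorem snd_image_pairSet (S : Set ℕ) :
    Prod.snd '' pairSet N m S = CuspForm.heckeGenerators N ((m : ℤ) + 2) S := by
  ext T
  constructor
  · rintro ⟨x, (⟨ℓ, hℓ, hℓN, hℓS, rfl⟩ | ⟨q, hqN, hq, hqS, rfl⟩), rfl⟩
    · exact Or.inl ⟨ℓ, hℓ, hℓN, hℓS, rfl⟩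
    · exact Or.inr ⟨q, hqN, hq, hqS, rfl⟩
  · rintro (⟨ℓ, hℓ, hℓN, hℓS, rfl⟩ | ⟨q, hqN, hq, hqS, rfl⟩)
    · exact ⟨_, Or.inl ⟨ℓ, hℓ, hℓN, hℓS, rfl⟩, rfl⟩
    · exact ⟨_, Or.inr ⟨q, hqN, hq, hqS, rfl⟩, rfl⟩

/-- Finiteness of the Hecke algebra over `ℤ` in weight `m + 2`. -/
theorem finite_heckeAlgebra_main (N : ℕ) [NeZero N] (m : ℕ) (S : Set ℕ) :
    Module.Finite ℤ (CuspForm.heckeAlgebra N ((m : ℤ) + 2) S) := by
  have key := finite_adjoin_of_lattice (periodHom N m) periodHom_injective (lamSet N)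
    lamSet_separates (intSub N) (ratCocycles N m) (fg_ratCocycles_inf_intSub N m)
    (exists_nsmul_mem_intSub N m)
    (by
      rintro f L ⟨l, hl, rfl⟩
      refine ⟨(isCocycle_periodPoly f).coeffMapW l, fun γ n => ?_⟩
      obtain ⟨a, ha⟩ := hl ((periodPoly m f γ).coeff n)
      refine ⟨a, ?_⟩
      change (coeffMap l (periodPoly m f γ)).coeff n = a
      rw [coeff_coeffMap, ha])
    (pairSet N m S)
    (by
      rintro x (⟨ℓ, hℓ, hℓN, hℓS, rfl⟩ | ⟨q, hqN, hq, hqS, rfl⟩) f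
      · have : Fact ℓ.Prime := ⟨hℓ⟩
        exact (periodPoly_heckeT hℓN f).symm
      · have : NeZero q := ⟨hq.ne_zero⟩
        exact (periodPoly_heckeU hqN f).symm)
    (by
      rintro x (⟨ℓ, hℓ, hℓN, hℓS, rfl⟩ | ⟨q, hqN, hq, hqS, rfl⟩) L ⟨l, hl, rfl⟩ w
      · have : Fact ℓ.Prime := ⟨hℓ⟩
        exact heckeTOp_coeffMapW hℓN l w
      · have : NeZero q := ⟨hq.ne_zero⟩
        exact heckeUOp_coeffMapW hqN l w)
    (by
      rintro x (⟨ℓ, hℓ, hℓN, hℓS, rfl⟩ | ⟨q, hqN, hq, hqS, rfl⟩) w hw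
      · have : Fact ℓ.Prime := ⟨hℓ⟩
        exact heckeTOp_mem_intSub hℓN hw
      · have : NeZero q := ⟨hq.ne_zero⟩
        exact heckeUOp_mem_intSub hqN hw)
  rw [snd_image_pairSet] at key
  exact key

end Fermat.Agent.S22
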