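import Mathlib
import Fermat.Prelude.Def_CuspForm_HeckeAlgebra

set_option autoImplicit false

open UpperHalfPlane hiding I
open Complex Filter Function
open scoped Manifold MatrixGroups ModularForm Topology Derivative

namespace Fermat.Agent.S22

/-- A function on the upper half plane given by a polynomial of degree at most `n`. -/
def IsPolyFun (n : ℕ) (G : ℍ → ℂ) : Prop :=
  ∃ p : Polynomial ℂ, p.natDegree ≤ n ∧ ∀ z : ℍ, G z = p.eval (z : ℂ)

namespace PolyFun

open Polynomial in
theorem exists_antiderivative (n : ℕ) (q : Polynomial ℂ) (hq : q.natDegree ≤ n) :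
    ∃ Q : Polynomial ℂ, Polynomial.derivative Q = q ∧ Q.natDegree ≤ n + 1 := by
  refine ⟨∑ i ∈ Finset.range (n + 1), monomial (i + 1) (q.coeff i / ((i : ℂ) + 1)), ?_, ?_⟩
  · rw [derivative_sum]
    conv_rhs => rw [q.as_sum_range' (n + 1) (by omega)]
    refine Finset.sum_congr rfl fun i _ => ?_
    rw [derivative_monomial]
    congr 1
    have : ((i : ℂ) + 1) ≠ 0 := by exact_mod_cast Nat.succ_ne_zero i
    push_cast
    field_simp
  · refine natDegree_sum_le_of_forall_le _ _ fun i hi => ?_
    refine (natDegree_monomial_le _).trans ?_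
    have := Finset.mem_range.mp hi
    omega

theorem eq_const_of_D_eq_zero {G : ℍ → ℂ} (hG : MDiff G) (h : D G = 0) :
    ∃ c : ℂ, ∀ z : ℍ, G z = c := by
  have hdiff : DifferentiableOn ℂ (G ∘ ofComplex) upperHalfPlaneSet :=
    UpperHalfPlane.mdifferentiable_iff.mp hG
  have hderiv : upperHalfPlaneSet.EqOn (deriv (G ∘ ofComplex)) 0 := by
    intro z hz
    have h1 := congrFun h ⟨z, hz⟩
    have h2pi : (2 * (Real.pi : ℂ) * Complex.I)⁻¹ ≠ 0 := by
      simp [Real.pi_ne_zero, Complex.I_ne_zero]
    simp only [Derivative.normalizedDerivOfComplex, Pi.zero_apply] at h1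
    exact (mul_eq_zero.mp h1).resolve_left h2pi
  obtain ⟨a, ha⟩ := isOpen_upperHalfPlaneSet.exists_is_const_of_deriv_eq_zero
    (convex_halfSpace_im_gt 0).isPreconnected hdiff hderiv
  refine ⟨a, fun z => ?_⟩
  have := ha (z : ℂ) z.2
  simpa [Function.comp_apply] using this

theorem mdiff_polyFun (p : Polynomial ℂ) : MDiff (fun z : ℍ => p.eval (z : ℂ)) := by
  rw [UpperHalfPlane.mdifferentiable_iff]
  have h1 : DifferentiableOn ℂ (fun z : ℂ => p.eval z) upperHalfPlaneSet :=
    p.differentiable.differentiableOn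
  refine h1.congr ?_
  intro z hz
  simp [Function.comp_apply, ofComplex_apply_of_im_pos hz]

theorem D_polyFun (p : Polynomial ℂ) :
    D (fun z : ℍ => p.eval (z : ℂ)) =
      fun z : ℍ => (2 * (Real.pi : ℂ) * Complex.I)⁻¹ * (Polynomial.derivative p).eval (z : ℂ) := by
  funext z
  simp only [Derivative.normalizedDerivOfComplex]
  congr 1
  have h1 : deriv ((fun z : ℍ => p.eval (z : ℂ)) ∘ ofComplex) (z : ℂ) =
      deriv (fun w : ℂ => p.eval w) (z : ℂ) := by
    apply Filter.EventuallyEq.deriv_eq
    filter_upwards [isOpen_upperHalfPlaneSet.mem_nhds z.2] with w hw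
    simp [Function.comp_apply, ofComplex_apply_of_im_pos hw]
  rw [h1, Polynomial.deriv]

end PolyFun

theorem isPolyFun_of_iterate_D_eq_zero (n : ℕ) {G : ℍ → ℂ} (hG : MDiff G)
    (h : D^[n + 1] G = 0) : IsPolyFun n G := by
  induction n generalizing G with
  | zero =>
    obtain ⟨c, hc⟩ := PolyFun.eq_const_of_D_eq_zero hG (by simpa using h)
    exact ⟨Polynomial.C c, by simp, fun z => by simp [hc z]⟩
  | succ n ih =>
    have hDG : MDiff (D G) := Derivative.normalizedDerivOfComplex_mdifferentiable hG
    have h' : D^[n + 1] (D G) = 0 := by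
      rw [← Function.iterate_succ_apply]
      exact h
    obtain ⟨q, hq, hqG⟩ := ih hDG h'
    obtain ⟨Q, hQ, hQdeg⟩ := PolyFun.exists_antiderivative n q hq
    set P : Polynomial ℂ := Polynomial.C (2 * (Real.pi : ℂ) * Complex.I) * Q with hP
    have h2pi : (2 * (Real.pi : ℂ) * Complex.I) ≠ 0 := by
      simp [Real.pi_ne_zero, Complex.I_ne_zero]
    have hPdiff : MDiff (fun z : ℍ => P.eval (z : ℂ)) := PolyFun.mdiff_polyFun P
    have hD : D (G - fun z : ℍ => P.eval (z : ℂ)) = 0 := by
      rw [Derivative.normalizedDerivOfComplex_sub _ _ hG hPdiff, PolyFun.D_polyFun]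
      funext z
      simp only [Pi.sub_apply, Pi.zero_apply, hqG z, hP, Polynomial.derivative_C_mul, hQ,
        Polynomial.eval_mul, Polynomial.eval_C]
      field_simp
      ring
    obtain ⟨c, hc⟩ := PolyFun.eq_const_of_D_eq_zero (hG.sub hPdiff) hD
    refine ⟨P + Polynomial.C c, ?_, fun z => ?_⟩
    · refine (Polynomial.natDegree_add_le _ _).trans (max_le ?_ (by simp))
      exact (Polynomial.natDegree_C_mul_le _ _).trans hQdeg
    · have := hc z
      simp only [Pi.sub_apply] at this
      rw [Polynomial.eval_add, Polynomial.eval_C, ← this]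
      ring

theorem poly_eq_of_eval_eq_on_upperHalfPlane {p q : Polynomial ℂ}
    (h : ∀ z : ℍ, p.eval (z : ℂ) = q.eval (z : ℂ)) : p = q := by
  apply Polynomial.eq_of_infinite_eval_eq
  have hinj : Function.Injective (fun m : ℕ => ((m : ℂ) + 1) * Complex.I) := by
    intro a b hab
    simp only [mul_eq_mul_right_iff, Complex.I_ne_zero, or_false, add_left_inj] at hab
    exact_mod_cast hab
  refine Set.infinite_of_injective_forall_mem hinj fun m => ?_
  have hpos : 0 < (((m : ℂ) + 1) * Complex.I).im := by
    simp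
    positivity
  exact h ⟨_, hpos⟩

theorem eq_zero_of_isPolyFun_of_isZeroAtImInfty {n : ℕ} {G : ℍ → ℂ} (h : IsPolyFun n G)
    (h0 : IsZeroAtImInfty G) : G = 0 := by
  obtain ⟨p, -, hp⟩ := h
  -- the path `t ↦ i t`
  have hpath : ∀ t : ℝ, 0 < t → 0 < ((t : ℂ) * Complex.I).im := by
    intro t ht
    simpa using ht
  let γ : ℝ → ℍ := fun t => if ht : 0 < t then ⟨(t : ℂ) * Complex.I, hpath t ht⟩ else UpperHalfPlane.I
  have hγ : Tendsto γ atTop atImInfty := by
    rw [atImInfty, tendsto_comap_iff]
    refine tendsto_atTop_mono' atTop ?_ tendsto_id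
    filter_upwards [eventually_gt_atTop 0] with t ht
    simp only [γ, dif_pos ht, Function.comp_apply, id]
    change t ≤ ((t : ℂ) * Complex.I).im
    simp
  have hlim : Tendsto (fun t : ℝ => p.eval ((t : ℂ) * Complex.I)) atTop (𝓝 0) := by
    have h1 : Tendsto (G ∘ γ) atTop (𝓝 0) := h0.comp hγ
    refine h1.congr' ?_
    filter_upwards [eventually_gt_atTop 0] with t ht
    simp only [Function.comp_apply, γ, dif_pos ht, hp]
  have hp0 : p = 0 := by
    by_contra hne
    by_cases hdeg : 0 < p.degree
    · have hnorm : Tendsto (fun t : ℝ => ‖(t : ℂ) * Complex.I‖) atTop atTop := by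
        have : (fun t : ℝ => ‖(t : ℂ) * Complex.I‖) = fun t : ℝ => |t| := by
          funext t
          simp
        rw [this]
        exact tendsto_abs_atTop_atTop
      have h2 := p.tendsto_norm_atTop hdeg hnorm
      have h3 : Tendsto (fun t : ℝ => ‖p.eval ((t : ℂ) * Complex.I)‖) atTop (𝓝 0) := by
        simpa using hlim.norm
      exact not_tendsto_nhds_of_tendsto_atTop h2 _ h3
    · have hC : p = Polynomial.C (p.coeff 0) :=
        Polynomial.eq_C_of_degree_le_zero (not_lt.mp hdeg)
      rw [hC] at hlim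
      simp only [Polynomial.eval_C] at hlim
      have h4 : p.coeff 0 = 0 := tendsto_nhds_unique tendsto_const_nhds hlim
      apply hne
      rw [hC, h4, map_zero]
  funext z
  rw [hp z, hp0]
  simp

theorem exists_const_of_isPolyFun_of_periodic {n : ℕ} {G : ℍ → ℂ} (h : IsPolyFun n G)
    {M : ℝ} (hM : 0 < M) (hper : Periodic (G ∘ ofComplex) M) : ∃ c : ℂ, ∀ z : ℍ, G z = c := by
  obtain ⟨p, -, hp⟩ := h
  -- p (X + M) = p
  have hshift : p.comp (Polynomial.X + Polynomial.C (M : ℂ)) = p := by
    apply poly_eq_of_eval_eq_on_upperHalfPlane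
    intro z
    rw [Polynomial.eval_comp, Polynomial.eval_add, Polynomial.eval_X, Polynomial.eval_C]
    have hz' : 0 < ((z : ℂ) + (M : ℂ)).im := by
      simpa using z.2
    have h1 := hper (z : ℂ)
    simp only [Function.comp_apply] at h1
    rw [ofComplex_apply_of_im_pos hz', ofComplex_apply_of_im_pos z.2] at h1
    rw [hp, hp] at h1
    exact h1
  have hiter : ∀ (m : ℕ) (w : ℂ), p.eval (w + m * (M : ℂ)) = p.eval w := by
    intro m
    induction m with
    | zero => intro w; simp
    | succ m ih =>
      intro w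
      have h2 : p.eval (w + (m + 1 : ℕ) * (M : ℂ)) =
          (p.comp (Polynomial.X + Polynomial.C (M : ℂ))).eval (w + m * (M : ℂ)) := by
        rw [Polynomial.eval_comp, Polynomial.eval_add, Polynomial.eval_X, Polynomial.eval_C]
        push_cast
        ring_nf
      rw [h2, hshift, ih]
  have hconst : p = Polynomial.C (p.eval Complex.I) := by
    apply Polynomial.eq_of_infinite_eval_eq
    have hinj : Function.Injective (fun m : ℕ => Complex.I + m * (M : ℂ)) := by
      intro a b hab
      simp only [add_right_inj, mul_eq_mul_right_iff] at hab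
      rcases hab with hab | hab
      · exact_mod_cast hab
      · exfalso
        exact hM.ne' (by exact_mod_cast hab)
    refine Set.infinite_of_injective_forall_mem hinj fun m => ?_
    change Polynomial.eval (Complex.I + m * (M : ℂ)) p = Polynomial.eval (Complex.I + m * (M : ℂ)) (Polynomial.C (p.eval Complex.I))
    rw [Polynomial.eval_C]
    exact hiter m Complex.I
  refine ⟨p.eval Complex.I, fun z => ?_⟩
  rw [hp z]
  conv_lhs => rw [hconst]
  simp

end Fermat.Agent.S22
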