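import Fermat.Agent.S22.Cocycle
import Fermat.Agent.S22.PolyFun

set_option autoImplicit false

open UpperHalfPlane hiding I
open Complex Filter Function
open scoped Manifold MatrixGroups ModularForm Topology Derivative
open Polynomial Matrix.SpecialLinearGroup

namespace Fermat.Agent.S22

/-- Coset representatives for `T_p` (from the prelude): `∞ ↦ [p 0; 0 1]`, `j ↦ [1 j; 0 p]`. -/
noncomputable abbrev hRep (p : ℕ) (x : OnePoint (ZMod p)) : GL (Fin 2) ℝ :=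
  P2MW.S_ModularForm_heckeT_slash_eq_self_of_mem_Gamma0.ModularForm.HeckeSlashInvariance.heckeRep p x

/-- Reduction of `g` mod `p` acting on `P¹(𝔽_p)` (from the prelude). -/
noncomputable abbrev redMat (p : ℕ) [Fact p.Prime] (g : SL(2, ℤ)) : GL (Fin 2) (ZMod p) :=
  P2MW.S_ModularForm_heckeT_slash_eq_self_of_mem_Gamma0.ModularForm.HeckeSlashInvariance.redMatrix p g

theorem dvd_of_mem_Gam {N : ℕ} (γ : Gam N) : (N : ℤ) ∣ (γ : SL(2, ℤ)) 1 0 :=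
  (ZMod.intCast_zmod_eq_zero_iff_dvd _ _).mp (CongruenceSubgroup.Gamma0_mem.mp γ.2)

theorem exists_decomp_T {p : ℕ} [Fact p.Prime] {N : ℕ} (hpN : ¬ p ∣ N) (γ : Gam N)
    (x : OnePoint (ZMod p)) :
    ∃ γ' : Gam N, hRep p x * mapGL ℝ (γ : SL(2, ℤ)) =
      mapGL ℝ (γ' : SL(2, ℤ)) * hRep p (redMat p (γ : SL(2, ℤ)) • x) := by
  obtain ⟨g', hg', h⟩ :=
    P2MW.S_ModularForm_heckeT_slash_eq_self_of_mem_Gamma0.ModularForm.HeckeSlashInvariance.heckeRep_mul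
      hpN (γ : SL(2, ℤ)) (dvd_of_mem_Gam γ) x
  exact ⟨⟨g', CongruenceSubgroup.Gamma0_mem.mpr ((ZMod.intCast_zmod_eq_zero_iff_dvd _ _).mpr hg')⟩, h⟩

/-- The element `γ_x ∈ Γ₀(N)` with `α_x γ = γ_x α_{γ·x}`. -/
noncomputable def gamT {p : ℕ} [Fact p.Prime] {N : ℕ} (hpN : ¬ p ∣ N) (γ : Gam N)
    (x : OnePoint (ZMod p)) : Gam N :=
  Classical.choose (exists_decomp_T hpN γ x)

theorem gamT_spec {p : ℕ} [Fact p.Prime] {N : ℕ} (hpN : ¬ p ∣ N) (γ : Gam N)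
    (x : OnePoint (ZMod p)) :
    hRep p x * mapGL ℝ (γ : SL(2, ℤ)) =
      mapGL ℝ (gamT hpN γ x : SL(2, ℤ)) * hRep p (redMat p (γ : SL(2, ℤ)) • x) :=
  Classical.choose_spec (exists_decomp_T hpN γ x)

/-- The action on polynomials of the representative `hRep p x`. -/
noncomputable def polyActRep (m p : ℕ) (x : OnePoint (ZMod p)) (q : ℂ[X]) : ℂ[X] :=
  x.elim (polyAct m p 0 0 1 q) (fun j => polyAct m 1 j.val 0 p q)

/-- The Hecke operator `T_p` on functions `Γ₀(N) → ℂ[X]`. -/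
noncomputable def heckeTOp (N m p : ℕ) [Fact p.Prime] (hpN : ¬ p ∣ N) (r : Gam N → ℂ[X]) :
    Gam N → ℂ[X] :=
  haveI : NeZero p := ⟨(Fact.out : p.Prime).ne_zero⟩
  fun γ => ∑ x : OnePoint (ZMod p),
    polyActRep m p (redMat p (γ : SL(2, ℤ)) • x) (r (gamT hpN γ x))

theorem intCast_eq_zero_of_dvd {q N : ℕ} (hqN : q ∣ N) (γ : Gam N) :
    ((((γ : SL(2, ℤ)) 1 0 : ℤ)) : ZMod q) = 0 :=
  (ZMod.intCast_zmod_eq_zero_iff_dvd _ _).mpr
    ((Int.natCast_dvd_natCast.mpr hqN).trans (dvd_of_mem_Gam γ))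

/-- The permutation of `ℤ/q` induced by `γ ∈ Γ₀(N)` when `q ∣ N` (from the prelude). -/
noncomputable def affPerm {q N : ℕ} (hqN : q ∣ N) (γ : Gam N) : Equiv.Perm (ZMod q) :=
  P2MW.S_ModularForm_heckeT_slash_eq_self_of_mem_Gamma0.ModularForm.HeckeSlashInvariance.affinePerm
    (γ : SL(2, ℤ)) (intCast_eq_zero_of_dvd hqN γ)

theorem exists_decomp_U {q : ℕ} [NeZero q] {N : ℕ} (hqN : q ∣ N) (γ : Gam N) (x : ZMod q) :
    ∃ γ' : Gam N, ModularForm.heckeMatrix q x.val * mapGL ℝ (γ : SL(2, ℤ)) =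
      mapGL ℝ (γ' : SL(2, ℤ)) * ModularForm.heckeMatrix q (affPerm hqN γ x).val := by
  obtain ⟨g', hg', h⟩ :=
    P2MW.S_ModularForm_heckeT_slash_eq_self_of_mem_Gamma0.ModularForm.HeckeSlashInvariance.heckeMatrix_mul_of_dvd
      (γ : SL(2, ℤ)) ((Int.natCast_dvd_natCast.mpr hqN).trans (dvd_of_mem_Gam γ)) x
  refine ⟨⟨g', CongruenceSubgroup.Gamma0_mem.mpr ((ZMod.intCast_zmod_eq_zero_iff_dvd _ _).mpr ?_)⟩, h⟩
  rw [hg']
  exact Dvd.dvd.mul_left (dvd_of_mem_Gam γ) _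

noncomputable def gamU {q : ℕ} [NeZero q] {N : ℕ} (hqN : q ∣ N) (γ : Gam N) (x : ZMod q) : Gam N :=
  Classical.choose (exists_decomp_U hqN γ x)

theorem gamU_spec {q : ℕ} [NeZero q] {N : ℕ} (hqN : q ∣ N) (γ : Gam N) (x : ZMod q) :
    ModularForm.heckeMatrix q x.val * mapGL ℝ (γ : SL(2, ℤ)) =
      mapGL ℝ (gamU hqN γ x : SL(2, ℤ)) * ModularForm.heckeMatrix q (affPerm hqN γ x).val :=
  Classical.choose_spec (exists_decomp_U hqN γ x)

/-- The Hecke operator `U_q` on functions `Γ₀(N) → ℂ[X]`. -/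
noncomputable def heckeUOp (N m q : ℕ) [NeZero q] (hqN : q ∣ N) (r : Gam N → ℂ[X]) :
    Gam N → ℂ[X] :=
  fun γ => ∑ x : ZMod q, polyAct m 1 ((affPerm hqN γ x).val) 0 q (r (gamU hqN γ x))

/-- The Eichler integral: the `(m+1)`-fold primitive (w.r.t. `D = (2πi)⁻¹ d/dz`) of a cusp form
of weight `m + 2`, normalised to vanish at `i∞`. -/
noncomputable def eichler {N : ℕ} (m : ℕ)
    (f : CuspForm (CongruenceSubgroup.Gamma0 N) ((m : ℤ) + 2)) : ℍ → ℂ :=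
  open Classical in
  if h : ∃ F : ℍ → ℂ, MDiff F ∧ IsZeroAtImInfty F ∧ D^[m + 1] F = ⇑f then h.choose else 0

/-- The period polynomial of `f` at `γ`: `F ∣[-m] γ - F` where `F` is the Eichler integral. -/
noncomputable def periodPoly {N : ℕ} (m : ℕ)
    (f : CuspForm (CongruenceSubgroup.Gamma0 N) ((m : ℤ) + 2)) (γ : Gam N) : ℂ[X] :=
  open Classical in
  if h : IsPolyFun m (eichler m f ∣[-(m : ℤ)] (γ : SL(2, ℤ)) - eichler m f) then h.choose else 0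

end Fermat.Agent.S22
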