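import Fermat.Agent.S22.PolyAct

set_option autoImplicit false

open scoped MatrixGroups
open Polynomial

namespace Fermat.Agent.S22

variable {N m : ℕ}

theorem polyActSL_add (g : SL(2, ℤ)) (p q : ℂ[X]) :
    polyActSL m g (p + q) = polyActSL m g p + polyActSL m g q :=
  polyAct_add _ _ _ _ _ _ _

@[simp] theorem polyActSL_zero (g : SL(2, ℤ)) : polyActSL m g 0 = 0 :=
  polyAct_zero _ _ _ _ _

theorem polyActSL_neg (g : SL(2, ℤ)) (p : ℂ[X]) : polyActSL m g (-p) = -polyActSL m g p :=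
  polyAct_neg _ _ _ _ _ _

theorem polyActSL_nsmul (g : SL(2, ℤ)) (n : ℕ) (p : ℂ[X]) :
    polyActSL m g (n • p) = n • polyActSL m g p :=
  polyAct_nsmul _ _ _ _ _ _ _

theorem natDegree_polyActSL_le (g : SL(2, ℤ)) (p : ℂ[X]) : (polyActSL m g p).natDegree ≤ m :=
  natDegree_polyAct_le _ _ _ _ _ _

theorem polyActSL_one {p : ℂ[X]} (hp : p.natDegree ≤ m) : polyActSL m (1 : SL(2, ℤ)) p = p := by
  unfold polyActSL
  simpa using polyAct_one hp

theorem coeffMap_polyActSL (l : ℂ →+ ℂ) (g : SL(2, ℤ)) (p : ℂ[X]) :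
    coeffMap l (polyActSL m g p) = polyActSL m g (coeffMap l p) :=
  coeffMap_polyAct _ _ _ _ _ _ _

theorem IsCocycle.map_one {r : Gam N → ℂ[X]} (h : IsCocycle N m r) : r 1 = 0 := by
  have h1 := h.map_mul 1 1
  rw [mul_one, OneMemClass.coe_one, polyActSL_one (h.natDegree_le 1)] at h1
  simpa using h1

theorem IsCocycle.map_inv {r : Gam N → ℂ[X]} (h : IsCocycle N m r) (γ : Gam N) :
    r γ⁻¹ = -polyActSL m ((γ⁻¹ : Gam N) : SL(2, ℤ)) (r γ) := by
  have h1 := h.map_mul γ γ⁻¹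
  rw [mul_inv_cancel, h.map_one] at h1
  exact eq_neg_of_add_eq_zero_right h1.symm

theorem IsCocycle.zero : IsCocycle N m (0 : Gam N → ℂ[X]) :=
  ⟨fun _ => by simp, fun _ _ => by simp⟩

theorem IsCocycle.add {r s : Gam N → ℂ[X]} (hr : IsCocycle N m r) (hs : IsCocycle N m s) :
    IsCocycle N m (r + s) :=
  ⟨fun γ => (natDegree_add_le _ _).trans (max_le (hr.natDegree_le γ) (hs.natDegree_le γ)),
    fun γ₁ γ₂ => by
      simp only [Pi.add_apply, hr.map_mul, hs.map_mul, polyActSL_add]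
      abel⟩

theorem IsCocycle.neg {r : Gam N → ℂ[X]} (hr : IsCocycle N m r) : IsCocycle N m (-r) :=
  ⟨fun γ => by simpa using hr.natDegree_le γ,
    fun γ₁ γ₂ => by
      simp only [Pi.neg_apply, hr.map_mul, polyActSL_neg]
      abel⟩

theorem IsCocycle.eq_zero_of_closure {r : Gam N → ℂ[X]} (h : IsCocycle N m r)
    {S : Set (Gam N)} (hS : Subgroup.closure S = ⊤) (h0 : ∀ s ∈ S, r s = 0) : r = 0 := by
  funext γ
  have hγ : γ ∈ Subgroup.closure S := hS ▸ Subgroup.mem_top γ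
  induction hγ using Subgroup.closure_induction with
  | mem x hx => exact h0 x hx
  | one => exact h.map_one
  | mul x y _ _ hx hy => rw [h.map_mul, hx, hy]; simp
  | inv x _ hx => rw [h.map_inv, hx]; simp

theorem IsCocycle.intCoeff_of_closure {r : Gam N → ℂ[X]} (h : IsCocycle N m r)
    {S : Set (Gam N)} (hS : Subgroup.closure S = ⊤) (h0 : ∀ s ∈ S, IntCoeff (r s)) :
    ∀ γ, IntCoeff (r γ) := by
  intro γ
  have hγ : γ ∈ Subgroup.closure S := hS ▸ Subgroup.mem_top γ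
  induction hγ using Subgroup.closure_induction with
  | mem x hx => exact h0 x hx
  | one => rw [h.map_one]; exact IntCoeff.zero
  | mul x y _ _ hx hy => rw [h.map_mul]; exact (hx.polyAct _ _ _ _ _).add hy
  | inv x _ hx => rw [h.map_inv]; exact (hx.polyAct _ _ _ _ _).neg

/-- Cocycles with rational coefficients. -/
def ratCocycles (N m : ℕ) : AddSubgroup (Gam N → ℂ[X]) where
  carrier := {w | IsCocycle N m w ∧ ∀ γ, RatCoeff (w γ)}
  zero_mem' := ⟨IsCocycle.zero, fun _ _ => ⟨0, by simp⟩⟩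
  add_mem' := by
    rintro v w ⟨hv, hv'⟩ ⟨hw, hw'⟩
    refine ⟨hv.add hw, fun γ n => ?_⟩
    obtain ⟨a, ha⟩ := hv' γ n
    obtain ⟨b, hb⟩ := hw' γ n
    exact ⟨a + b, by simp [ha, hb]⟩
  neg_mem' := by
    rintro v ⟨hv, hv'⟩
    refine ⟨hv.neg, fun γ n => ?_⟩
    obtain ⟨a, ha⟩ := hv' γ n
    exact ⟨-a, by simp [ha]⟩

theorem mem_ratCocycles {w : Gam N → ℂ[X]} :
    w ∈ ratCocycles N m ↔ IsCocycle N m w ∧ ∀ γ, RatCoeff (w γ) := Iff.rfl

theorem mem_intSub {w : Gam N → ℂ[X]} : w ∈ intSub N ↔ ∀ γ, IntCoeff (w γ) := Iff.rfl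

instance instFGSL2Z : Group.FG SL(2, ℤ) :=
  Group.fg_iff.mpr ⟨{ModularGroup.S, ModularGroup.T}, SpecialLinearGroup.SL2Z_generators,
    by simp⟩

theorem exists_finset_closure (N : ℕ) [NeZero N] :
    ∃ S : Finset (Gam N), Subgroup.closure (S : Set (Gam N)) = ⊤ := by
  have : Group.FG (Gam N) := Subgroup.fg_of_index_ne_zero (CongruenceSubgroup.Gamma0 N)
  exact Group.fg_def.mp inferInstance

theorem exists_nsmul_mem_intSub (N m : ℕ) [NeZero N] :
    ∀ w ∈ ratCocycles N m, ∃ d : ℕ, d ≠ 0 ∧ d • w ∈ intSub N := by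
  classical
  rintro w ⟨hw, hw'⟩
  obtain ⟨S, hS⟩ := exists_finset_closure N
  choose q hq using hw'
  refine ⟨∏ x ∈ S ×ˢ Finset.range (m + 1), (q x.1 x.2).den, ?_, ?_⟩
  · exact Finset.prod_ne_zero_iff.mpr fun x _ => (q x.1 x.2).den_nz
  · set d := ∏ x ∈ S ×ˢ Finset.range (m + 1), (q x.1 x.2).den with hd
    have hcoc : IsCocycle N m (d • w) := by
      have hmem : w ∈ ratCocycles N m := ⟨hw, fun γ n => ⟨q γ n, hq γ n⟩⟩
      have : d • w ∈ ratCocycles N m := AddSubgroup.nsmul_mem _ hmem d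
      exact this.1
    refine mem_intSub.mpr (hcoc.intCoeff_of_closure hS fun s hs n => ?_)
    by_cases hn : n ≤ m
    · have hmem : (s, n) ∈ S ×ˢ Finset.range (m + 1) :=
        Finset.mem_product.mpr ⟨hs, Finset.mem_range.mpr (Nat.lt_succ_of_le hn)⟩
      have hdvd : (q s n).den ∣ d :=
        Finset.dvd_prod_of_mem (fun x : Gam N × ℕ => (q x.1 x.2).den) hmem
      obtain ⟨e, he⟩ := hdvd
      refine ⟨e * (q s n).num, ?_⟩
      have h1 : ((q s n : ℚ) : ℂ) = ((q s n).num : ℂ) / ((q s n).den : ℂ) := by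
        conv_lhs => rw [← Rat.num_div_den (q s n)]
        push_cast; rfl
      have hden : ((q s n).den : ℂ) ≠ 0 := by exact_mod_cast (q s n).den_nz
      have hc : ((d • w) s).coeff n = (d : ℂ) * (q s n : ℂ) := by
        rw [Pi.smul_apply, coeff_smul, hq s n, nsmul_eq_mul]
      rw [hc, h1, he]
      push_cast
      field_simp
    · refine ⟨0, ?_⟩
      have : (w s).coeff n = 0 :=
        coeff_eq_zero_of_natDegree_lt (lt_of_le_of_lt (hw.natDegree_le s) (not_le.mp hn))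
      simp [this]

theorem fg_ratCocycles_inf_intSub (N m : ℕ) [NeZero N] : (ratCocycles N m ⊓ intSub N).FG := by
  classical
  obtain ⟨S, hS⟩ := exists_finset_closure N
  set Z : Submodule ℤ (Gam N → ℂ[X]) := AddSubgroup.toIntSubmodule (ratCocycles N m ⊓ intSub N)
    with hZ
  let ev : (Gam N → ℂ[X]) →ₗ[ℤ] (↥S × Fin (m + 1) → ℂ) :=
    { toFun := fun w x => (w x.1).coeff x.2
      map_add' := fun v w => by funext x; simp
      map_smul' := fun c w => by funext x; simp }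
  let f : ↥Z →ₗ[ℤ] (↥S × Fin (m + 1) → ℂ) := ev.domRestrict Z
  have hf : Function.Injective f := by
    refine (injective_iff_map_eq_zero f).mpr fun w hw => ?_
    have hwZ : (w : Gam N → ℂ[X]) ∈ ratCocycles N m ⊓ intSub N := w.2
    have hcoc : IsCocycle N m (w : Gam N → ℂ[X]) := hwZ.1.1
    apply Subtype.ext
    refine hcoc.eq_zero_of_closure hS fun s hs => ?_
    refine eq_zero_of_natDegree_le_of_coeff (hcoc.natDegree_le s) fun j hj => ?_
    have := congrFun hw (⟨s, hs⟩, ⟨j, Nat.lt_succ_of_le hj⟩)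
    simpa [f, ev] using this
  set M : Submodule ℤ (↥S × Fin (m + 1) → ℂ) :=
    Submodule.span ℤ (Set.range fun i : ↥S × Fin (m + 1) =>
      (Pi.single i (1 : ℂ) : ↥S × Fin (m + 1) → ℂ)) with hM
  have hMfg : M.FG := Submodule.fg_span (Set.finite_range _)
  have hle : (⊤ : Submodule ℤ ↥Z).map f ≤ M := by
    rintro _ ⟨w, -, rfl⟩
    have hwZ : (w : Gam N → ℂ[X]) ∈ ratCocycles N m ⊓ intSub N := w.2
    have hint : ∀ γ, IntCoeff ((w : Gam N → ℂ[X]) γ) := hwZ.2
    choose a ha using fun x : ↥S × Fin (m + 1) => hint x.1 x.2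
    have hv : f w = ∑ i : ↥S × Fin (m + 1),
        (a i) • (Pi.single i (1 : ℂ) : ↥S × Fin (m + 1) → ℂ) := by
      funext j
      rw [Finset.sum_apply, Finset.sum_eq_single j, Pi.smul_apply, Pi.single_eq_same,
        zsmul_eq_mul, mul_one]
      · exact ha j
      · intro i _ hij
        rw [Pi.smul_apply, Pi.single_eq_of_ne' hij, smul_zero]
      · simp
    rw [hv]
    exact Submodule.sum_mem _ fun i _ => Submodule.smul_mem _ _ (Submodule.subset_span ⟨i, rfl⟩)
  have htop : (⊤ : Submodule ℤ ↥Z).FG :=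
    Submodule.fg_of_fg_map_injective f hf (hMfg.of_le hle)
  have hZfg : Z.FG := by
    have : Module.Finite ℤ ↥Z := ⟨htop⟩
    exact Module.Finite.iff_fg.mp this
  rw [Submodule.fg_iff_addSubgroup_fg, hZ, AddSubgroup.toIntSubmodule_toAddSubgroup] at hZfg
  exact hZfg

end Fermat.Agent.S22
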