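import Mathlib
import Fermat.Prelude.Def_CuspForm_HeckeAlgebra

set_option autoImplicit false

open scoped MatrixGroups
open Polynomial

namespace Fermat.Agent.S22

/-- The group `Γ₀(N)` as a type. -/
abbrev Gam (N : ℕ) : Type := ↥(CongruenceSubgroup.Gamma0 N)

/-- `(aX+b)^j (cX+d)^(m-j)` as an integer polynomial. -/
noncomputable def polyBasis (m j : ℕ) (a b c d : ℤ) : ℤ[X] :=
  (C a * X + C b) ^ j * (C c * X + C d) ^ (m - j)

/-- The weight `-m` action of the integer matrix `[a b; c d]` on polynomials of degree `≤ m`: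
`p ↦ (cX+d)^m p((aX+b)/(cX+d))`. -/
noncomputable def polyAct (m : ℕ) (a b c d : ℤ) (p : ℂ[X]) : ℂ[X] :=
  ∑ j ∈ Finset.range (m + 1), p.coeff j • (polyBasis m j a b c d).map (Int.castRingHom ℂ)

noncomputable def polyActSL (m : ℕ) (g : SL(2, ℤ)) (p : ℂ[X]) : ℂ[X] :=
  polyAct m (g 0 0) (g 0 1) (g 1 0) (g 1 1) p

/-- Apply an additive map to every coefficient. -/
noncomputable def coeffMap (l : ℂ →+ ℂ) (p : ℂ[X]) : ℂ[X] :=
  ∑ n ∈ p.support, monomial n (l (p.coeff n))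

/-- Period cocycles of weight `m + 2` on `Γ₀(N)`. -/
structure IsCocycle (N m : ℕ) (r : Gam N → ℂ[X]) : Prop where
  natDegree_le : ∀ γ, (r γ).natDegree ≤ m
  map_mul : ∀ γ₁ γ₂ : Gam N, r (γ₁ * γ₂) = polyActSL m (γ₂ : SL(2, ℤ)) (r γ₁) + r γ₂

/-- Functions with integer coefficients. -/
def intSub (N : ℕ) : AddSubgroup (Gam N → ℂ[X]) where
  carrier := {w | ∀ γ n, ∃ a : ℤ, (w γ).coeff n = a}
  zero_mem' := fun _ _ => ⟨0, by simp⟩
  add_mem' := by
    intro v w hv hw γ n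
    obtain ⟨a, ha⟩ := hv γ n
    obtain ⟨b, hb⟩ := hw γ n
    exact ⟨a + b, by simp [ha, hb]⟩
  neg_mem' := by
    intro v hv γ n
    obtain ⟨a, ha⟩ := hv γ n
    exact ⟨-a, by simp [ha]⟩

end Fermat.Agent.S22
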