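import Fermat.Agent.S22.HeckeDefs

set_option autoImplicit false

open scoped MatrixGroups
open Polynomial

namespace Fermat.Agent.S22

variable {N m : ℕ}

theorem polyActRep_add (m p : ℕ) (x : OnePoint (ZMod p)) (q₁ q₂ : ℂ[X]) :
    polyActRep m p x (q₁ + q₂) = polyActRep m p x q₁ + polyActRep m p x q₂ := by
  induction x using OnePoint.rec with
  | infty => exact polyAct_add _ _ _ _ _ _ _
  | coe j => exact polyAct_add _ _ _ _ _ _ _

@[simp] theorem polyActRep_zero (m p : ℕ) (x : OnePoint (ZMod p)) : polyActRep m p x 0 = 0 := by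
  induction x using OnePoint.rec with
  | infty => exact polyAct_zero _ _ _ _ _
  | coe j => exact polyAct_zero _ _ _ _ _

theorem coeffMap_polyActRep (l : ℂ →+ ℂ) (m p : ℕ) (x : OnePoint (ZMod p)) (q : ℂ[X]) :
    coeffMap l (polyActRep m p x q) = polyActRep m p x (coeffMap l q) := by
  induction x using OnePoint.rec with
  | infty => exact coeffMap_polyAct _ _ _ _ _ _ _
  | coe j => exact coeffMap_polyAct _ _ _ _ _ _ _

theorem IntCoeff.polyActRep {q : ℂ[X]} (hq : IntCoeff q) (m p : ℕ) (x : OnePoint (ZMod p)) :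
    IntCoeff (polyActRep m p x q) := by
  induction x using OnePoint.rec with
  | infty => exact hq.polyAct _ _ _ _ _
  | coe j => exact hq.polyAct _ _ _ _ _

theorem natDegree_polyActRep_le (m p : ℕ) (x : OnePoint (ZMod p)) (q : ℂ[X]) :
    (polyActRep m p x q).natDegree ≤ m := by
  induction x using OnePoint.rec with
  | infty => exact natDegree_polyAct_le _ _ _ _ _ _
  | coe j => exact natDegree_polyAct_le _ _ _ _ _ _

/-- Apply an additive map coefficientwise to a function `Γ₀(N) → ℂ[X]`. -/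
noncomputable def coeffMapW (N : ℕ) (l : ℂ →+ ℂ) : AddMonoid.End (Gam N → ℂ[X]) where
  toFun w := fun γ => coeffMap l (w γ)
  map_zero' := by funext γ; simp
  map_add' v w := by funext γ; simp [coeffMap_add]

@[simp] theorem coeffMapW_apply (l : ℂ →+ ℂ) (w : Gam N → ℂ[X]) (γ : Gam N) :
    coeffMapW N l w γ = coeffMap l (w γ) := rfl

section T

variable {p : ℕ} [Fact p.Prime] (hpN : ¬ p ∣ N)

theorem heckeTOp_apply (r : Gam N → ℂ[X]) (γ : Gam N) :
    heckeTOp N m p hpN r γ =
      haveI : NeZero p := ⟨(Fact.out : p.Prime).ne_zero⟩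
      ∑ x : OnePoint (ZMod p),
        polyActRep m p (redMat p (γ : SL(2, ℤ)) • x) (r (gamT hpN γ x)) := rfl

/-- `T_p` on functions `Γ₀(N) → ℂ[X]` as an additive endomorphism. -/
noncomputable def heckeTOpHom (N m p : ℕ) [Fact p.Prime] (hpN : ¬ p ∣ N) :
    AddMonoid.End (Gam N → ℂ[X]) where
  toFun := heckeTOp N m p hpN
  map_zero' := by
    funext γ
    simp [heckeTOp_apply]
  map_add' r s := by
    funext γ
    simp [heckeTOp_apply, polyActRep_add, Finset.sum_add_distrib]

@[simp] theorem heckeTOpHom_apply (r : Gam N → ℂ[X]) :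
    heckeTOpHom N m p hpN r = heckeTOp N m p hpN r := rfl

theorem heckeTOp_coeffMapW (l : ℂ →+ ℂ) (r : Gam N → ℂ[X]) :
    heckeTOp N m p hpN (coeffMapW N l r) = coeffMapW N l (heckeTOp N m p hpN r) := by
  funext γ
  simp [heckeTOp_apply, coeffMap_sum, coeffMap_polyActRep]

theorem heckeTOp_mem_intSub {r : Gam N → ℂ[X]} (hr : r ∈ intSub N) :
    heckeTOp N m p hpN r ∈ intSub N := by
  refine mem_intSub.mpr fun γ => ?_
  rw [heckeTOp_apply]
  exact IntCoeff.sum fun x _ => (mem_intSub.mp hr _).polyActRep _ _ _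

end T

section U

variable {q : ℕ} [NeZero q] (hqN : q ∣ N)

theorem heckeUOp_apply (r : Gam N → ℂ[X]) (γ : Gam N) :
    heckeUOp N m q hqN r γ =
      ∑ x : ZMod q, polyAct m 1 ((affPerm hqN γ x).val) 0 q (r (gamU hqN γ x)) := rfl

/-- `U_q` on functions `Γ₀(N) → ℂ[X]` as an additive endomorphism. -/
noncomputable def heckeUOpHom (N m q : ℕ) [NeZero q] (hqN : q ∣ N) :
    AddMonoid.End (Gam N → ℂ[X]) where
  toFun := heckeUOp N m q hqN
  map_zero' := by
    funext γ
    simp [heckeUOp_apply]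
  map_add' r s := by
    funext γ
    simp [heckeUOp_apply, polyAct_add, Finset.sum_add_distrib]

@[simp] theorem heckeUOpHom_apply (r : Gam N → ℂ[X]) :
    heckeUOpHom N m q hqN r = heckeUOp N m q hqN r := rfl

theorem heckeUOp_coeffMapW (l : ℂ →+ ℂ) (r : Gam N → ℂ[X]) :
    heckeUOp N m q hqN (coeffMapW N l r) = coeffMapW N l (heckeUOp N m q hqN r) := by
  funext γ
  simp [heckeUOp_apply, coeffMap_sum, coeffMap_polyAct]

theorem heckeUOp_mem_intSub {r : Gam N → ℂ[X]} (hr : r ∈ intSub N) :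
    heckeUOp N m q hqN r ∈ intSub N := by
  refine mem_intSub.mpr fun γ => ?_
  rw [heckeUOp_apply]
  exact IntCoeff.sum fun x _ => (mem_intSub.mp hr _).polyAct _ _ _ _ _

end U

end Fermat.Agent.S22
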