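import Fermat.Agent.S22.Defs

set_option autoImplicit false

open scoped MatrixGroups
open Polynomial

namespace Fermat.Agent.S22

theorem coeff_polyAct (m : ℕ) (a b c d : ℤ) (p : ℂ[X]) (i : ℕ) :
    (polyAct m a b c d p).coeff i =
      ∑ j ∈ Finset.range (m + 1), p.coeff j * (((polyBasis m j a b c d).coeff i : ℤ) : ℂ) := by
  simp [polyAct, Polynomial.coeff_smul, Polynomial.coeff_map]

theorem polyAct_add (m : ℕ) (a b c d : ℤ) (p q : ℂ[X]) :
    polyAct m a b c d (p + q) = polyAct m a b c d p + polyAct m a b c d q := by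
  simp [polyAct, add_smul, Finset.sum_add_distrib]

@[simp] theorem polyAct_zero (m : ℕ) (a b c d : ℤ) : polyAct m a b c d 0 = 0 := by
  simp [polyAct]

/-- `polyAct` as an additive hom. -/
noncomputable def polyActHom (m : ℕ) (a b c d : ℤ) : ℂ[X] →+ ℂ[X] where
  toFun := polyAct m a b c d
  map_zero' := polyAct_zero m a b c d
  map_add' := polyAct_add m a b c d

@[simp] theorem polyActHom_apply (m : ℕ) (a b c d : ℤ) (p : ℂ[X]) :
    polyActHom m a b c d p = polyAct m a b c d p := rfl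

theorem polyAct_neg (m : ℕ) (a b c d : ℤ) (p : ℂ[X]) :
    polyAct m a b c d (-p) = -polyAct m a b c d p :=
  map_neg (polyActHom m a b c d) p

theorem polyAct_sub (m : ℕ) (a b c d : ℤ) (p q : ℂ[X]) :
    polyAct m a b c d (p - q) = polyAct m a b c d p - polyAct m a b c d q :=
  map_sub (polyActHom m a b c d) p q

theorem polyAct_nsmul (m : ℕ) (a b c d : ℤ) (n : ℕ) (p : ℂ[X]) :
    polyAct m a b c d (n • p) = n • polyAct m a b c d p :=
  map_nsmul (polyActHom m a b c d) n p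

theorem polyAct_sum {ι : Type*} (m : ℕ) (a b c d : ℤ) (s : Finset ι) (f : ι → ℂ[X]) :
    polyAct m a b c d (∑ i ∈ s, f i) = ∑ i ∈ s, polyAct m a b c d (f i) :=
  map_sum (polyActHom m a b c d) f s

theorem natDegree_polyBasis_le {m j : ℕ} (hj : j ≤ m) (a b c d : ℤ) :
    (polyBasis m j a b c d).natDegree ≤ m := by
  unfold polyBasis
  have h1 : (C a * X + C b : ℤ[X]).natDegree ≤ 1 := by
    refine (natDegree_add_le _ _).trans (max_le ?_ (by simp))
    exact (natDegree_C_mul_le _ _).trans natDegree_X_le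
  have h2 : (C c * X + C d : ℤ[X]).natDegree ≤ 1 := by
    refine (natDegree_add_le _ _).trans (max_le ?_ (by simp))
    exact (natDegree_C_mul_le _ _).trans natDegree_X_le
  calc ((C a * X + C b : ℤ[X]) ^ j * (C c * X + C d) ^ (m - j)).natDegree
      ≤ ((C a * X + C b : ℤ[X]) ^ j).natDegree + ((C c * X + C d : ℤ[X]) ^ (m - j)).natDegree :=
        natDegree_mul_le
    _ ≤ j * 1 + (m - j) * 1 :=
        add_le_add ((natDegree_pow_le).trans (Nat.mul_le_mul_left _ h1))
          ((natDegree_pow_le).trans (Nat.mul_le_mul_left _ h2))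
    _ = m := by omega

theorem natDegree_polyAct_le (m : ℕ) (a b c d : ℤ) (p : ℂ[X]) :
    (polyAct m a b c d p).natDegree ≤ m := by
  unfold polyAct
  refine natDegree_sum_le_of_forall_le _ _ fun j hj => ?_
  refine (natDegree_smul_le _ _).trans ?_
  exact natDegree_map_le.trans
    (natDegree_polyBasis_le (Nat.lt_succ_iff.mp (Finset.mem_range.mp hj)) a b c d)

theorem eval_polyAct {m : ℕ} (a b c d : ℤ) {p : ℂ[X]} (hp : p.natDegree ≤ m) (z : ℂ)
    (hz : (c : ℂ) * z + d ≠ 0) :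
    (polyAct m a b c d p).eval z =
      ((c : ℂ) * z + d) ^ m * p.eval (((a : ℂ) * z + b) / ((c : ℂ) * z + d)) := by
  rw [eval_eq_sum_range' (Nat.lt_succ_of_le hp), Finset.mul_sum]
  unfold polyAct polyBasis
  rw [eval_finsetSum]
  refine Finset.sum_congr rfl fun j hj => ?_
  have hj' : j ≤ m := Nat.lt_succ_iff.mp (Finset.mem_range.mp hj)
  simp only [eval_smul, smul_eq_mul, Polynomial.map_mul, Polynomial.map_pow, Polynomial.map_add,
    Polynomial.map_X, eval_mul, eval_pow, eval_add, eval_X,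
    eq_intCast, Polynomial.map_intCast, eval_intCast]
  rw [div_pow]
  have : ((c : ℂ) * z + d) ^ m = ((c : ℂ) * z + d) ^ j * ((c : ℂ) * z + d) ^ (m - j) := by
    rw [← pow_add]; congr 1; omega
  rw [this]
  have hz' : z * (c : ℂ) + d ≠ 0 := by rwa [mul_comm]
  field_simp

theorem polyAct_one {m : ℕ} {p : ℂ[X]} (hp : p.natDegree ≤ m) : polyAct m 1 0 0 1 p = p := by
  conv_rhs => rw [as_sum_range' p (m + 1) (Nat.lt_succ_of_le hp)]
  unfold polyAct polyBasis
  refine Finset.sum_congr rfl fun j _ => ?_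
  simp [smul_eq_C_mul, ← C_mul_X_pow_eq_monomial]

/-- integrality of coefficients -/
def IntCoeff (p : ℂ[X]) : Prop := ∀ n, ∃ a : ℤ, p.coeff n = a

def RatCoeff (p : ℂ[X]) : Prop := ∀ n, ∃ a : ℚ, p.coeff n = a

theorem IntCoeff.polyAct {p : ℂ[X]} (hp : IntCoeff p) (m : ℕ) (a b c d : ℤ) :
    IntCoeff (polyAct m a b c d p) := by
  intro i
  choose e he using hp
  refine ⟨∑ j ∈ Finset.range (m + 1), e j * (polyBasis m j a b c d).coeff i, ?_⟩
  rw [coeff_polyAct]
  push_cast
  exact Finset.sum_congr rfl fun j _ => by rw [he j]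

theorem IntCoeff.add {p q : ℂ[X]} (hp : IntCoeff p) (hq : IntCoeff q) : IntCoeff (p + q) := by
  intro n
  obtain ⟨a, ha⟩ := hp n
  obtain ⟨b, hb⟩ := hq n
  exact ⟨a + b, by simp [ha, hb]⟩

theorem IntCoeff.neg {p : ℂ[X]} (hp : IntCoeff p) : IntCoeff (-p) := by
  intro n
  obtain ⟨a, ha⟩ := hp n
  exact ⟨-a, by simp [ha]⟩

theorem IntCoeff.zero : IntCoeff 0 := fun _ => ⟨0, by simp⟩

theorem IntCoeff.sum {ι : Type*} {s : Finset ι} {f : ι → ℂ[X]} (h : ∀ i ∈ s, IntCoeff (f i)) :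
    IntCoeff (∑ i ∈ s, f i) := by
  classical
  induction s using Finset.induction_on with
  | empty => simpa using IntCoeff.zero
  | insert a s ha ih =>
    rw [Finset.sum_insert ha]
    exact (h a (Finset.mem_insert_self a s)).add
      (ih fun i hi => h i (Finset.mem_insert_of_mem hi))

@[simp] theorem coeff_coeffMap (l : ℂ →+ ℂ) (p : ℂ[X]) (n : ℕ) :
    (coeffMap l p).coeff n = l (p.coeff n) := by
  unfold coeffMap
  rw [finsetSum_coeff]
  simp only [coeff_monomial]
  rw [Finset.sum_ite_eq']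
  split_ifs with h
  · rfl
  · rw [notMem_support_iff.mp h, map_zero]

theorem coeffMap_add (l : ℂ →+ ℂ) (p q : ℂ[X]) :
    coeffMap l (p + q) = coeffMap l p + coeffMap l q := by
  ext n; simp

@[simp] theorem coeffMap_zero (l : ℂ →+ ℂ) : coeffMap l 0 = 0 := by
  ext n; simp

theorem natDegree_coeffMap_le (l : ℂ →+ ℂ) (p : ℂ[X]) : (coeffMap l p).natDegree ≤ p.natDegree := by
  refine natDegree_le_iff_coeff_eq_zero.mpr fun n hn => ?_
  rw [coeff_coeffMap, coeff_eq_zero_of_natDegree_lt hn, map_zero]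

theorem coeffMap_polyAct (l : ℂ →+ ℂ) (m : ℕ) (a b c d : ℤ) (p : ℂ[X]) :
    coeffMap l (polyAct m a b c d p) = polyAct m a b c d (coeffMap l p) := by
  ext i
  rw [coeff_coeffMap, coeff_polyAct, coeff_polyAct, map_sum]
  refine Finset.sum_congr rfl fun j _ => ?_
  rw [coeff_coeffMap, mul_comm, ← zsmul_eq_mul, map_zsmul, zsmul_eq_mul, mul_comm]

theorem coeffMap_sum {ι : Type*} (l : ℂ →+ ℂ) (s : Finset ι) (f : ι → ℂ[X]) :
    coeffMap l (∑ i ∈ s, f i) = ∑ i ∈ s, coeffMap l (f i) := by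
  ext n; simp [finsetSum_coeff]

theorem eq_zero_of_natDegree_le_of_coeff {m : ℕ} {p : ℂ[X]} (hp : p.natDegree ≤ m)
    (h : ∀ j, j ≤ m → p.coeff j = 0) : p = 0 := by
  ext n
  by_cases hn : n ≤ m
  · simpa using h n hn
  · simpa using coeff_eq_zero_of_natDegree_lt (lt_of_le_of_lt hp (not_le.mp hn))

end Fermat.Agent.S22
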